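import Fermat.Agent.Gateway.Descent.Main
import Fermat.Agent.Gateway.Kummer.Final

/-!
# P-GATEWAY (c), T1.f DESCENT: `KummerRedInj` descends from a good level `M` to `N`

`Kummer.KummerRedInj N A m` (helper47, `Gateway/Kummer/Final.lean`) is the hypothesis (C0) of the
Kummer exports E5/E6 (`Gateway/Kummer/Export.lean`) and of the S18 glue.  helper92's C0 machine
produces it at a GOOD level `M` (`4 ∣ M` for odd residue characteristic, `9 ∣ M` for residue
characteristic `2`).  Here we transport it to an arbitrary level `N` along `F_N ⊆ F_M`,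
`M = lcm N 4` or `M = lcm N 9`, using the Kummer descent (D1) of `Descent/Main.lean`.

* `kummerRedInj_of_dvd_of_lt` : general numerical form (`N ∣ M`, `ψ(M) N < 2 M ψ(N)`).
* `kummerRedInj_of_lcm` : `M = lcm N 4 ∨ M = lcm N 9`.
* `kummerRedInj_all_of_good` : the hypothesis `hC0` of `Kummer.torsionUnramified` /
  `Kummer.torsionEichlerShimura` at level `N`, from (C0) at the good levels `lcm N 4`
  (odd `ℓ`) and `lcm N 9` (`ℓ = 2`).
-/

set_option autoImplicit false
set_option linter.style.haveILetI false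

noncomputable section

open AlgebraicCurve IntermediateField ModularCurve HahnSeries

namespace Fermat.Agent.Gateway.Descent

open Fermat.Agent.S24 Fermat.Agent.S24.Setup Fermat.Agent.Gateway.Kummer

local notation "Qb" => AlgebraicClosure ℚ

variable {N M : ℕ} [NeZero N] [NeZero M]

/-- `RedRel` is monotone in the field. -/
theorem redRel_mono {L : Type*} [Field L] {A : ValuationSubring L} {k : Type*} [Field k]
    {π : A →+* k} {F F' : IntermediateField L (LaurentSeries L)} (hFF : F ≤ F')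
    {u : LaurentSeries L} {ū : LaurentSeries k} (h : RedRel A π F u ū) : RedRel A π F' u ū := by
  obtain ⟨y₁, y₂, h1, h2, h3, h4, h5⟩ := h
  exact ⟨y₁, y₂, hFF h1, hFF h2, h3, h4, h5⟩

/-- Orders of the image under the inclusion are multiples of orders downstairs. -/
theorem dvd_ord_incl (h : N ∣ M) {m : ℕ} {z : FF N}
    (hdiv : ∀ P : Place Kbar (FF N), (m : ℤ) ∣ P.ord z) (Q : Place Kbar (FF M)) :
    (m : ℤ) ∣ Q.ord (Incl.incl h z) := by
  letI := Incl.algebraIncl h
  haveI := Incl.isScalarTower_incl h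
  haveI := Incl.isIntegral_incl h
  have h1 := Q.ord_restrict (F := FF N) z
  rw [Incl.algebraMap_incl] at h1
  rw [h1]
  exact Dvd.dvd.mul_left (hdiv _) _

/-- **(C0) descends** along `F_N ⊆ F_M` (general numerical form). -/
theorem kummerRedInj_of_dvd_of_lt (hNM : N ∣ M)
    (hlt : dedekindPsi M * N < 2 * M * dedekindPsi N)
    (A : ValuationSubring Qb) {m : ℕ} (hm : 0 < m)
    (hM : KummerRedInj M A m) : KummerRedInj N A m := by
  intro z hz hdiv hred
  -- move to level `M`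
  have hz' : Incl.incl hNM z ≠ 0 := by
    intro h0
    exact hz ((Incl.incl hNM).toRingHom.injective (h0.trans (map_zero _).symm))
  have hred' : RedRel A (IsLocalRing.residue A) (Kummer.FF Qb M)
      ((Incl.incl hNM z : FF M) : LaurentSeries Qb) 1 := by
    rw [Incl.coe_incl]
    exact redRel_mono (Incl.le_of_dvd hNM) hred
  obtain ⟨c, w, hcw⟩ := hM (Incl.incl hNM z) hz' (dvd_ord_incl hNM hdiv) hred'
  have hc : c ≠ 0 := by
    rintro rfl
    rw [map_zero, zero_mul] at hcw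
    exact hz' hcw
  obtain ⟨c', w', -, h'⟩ := kummer_descent_of_lt hNM hlt m hm z hz hdiv ⟨c, w, hc, hcw⟩
  exact ⟨c', w', h'⟩

/-- **(C0) descends** from `M = lcm N 4` or `M = lcm N 9` to `N`. -/
theorem kummerRedInj_of_lcm (hM : M = Nat.lcm N 4 ∨ M = Nat.lcm N 9)
    (A : ValuationSubring Qb) {m : ℕ} (hm : 0 < m)
    (h : KummerRedInj M A m) : KummerRedInj N A m :=
  kummerRedInj_of_dvd_of_lt (dvd_of_eq_lcm_or hM) (lt_of_eq_lcm_or hM) A hm h

omit [NeZero M] in
/-- The hypothesis `hC0` of `Kummer.torsionUnramified` / `Kummer.torsionEichlerShimura` at an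
arbitrary level `N`, from (C0) at good levels: levels divisible by `4` for odd `ℓ`, by `9` for
`ℓ = 2`. -/
theorem kummerRedInj_all_of_good (N : ℕ) [NeZero N]
    (hgood : ∀ (M : ℕ) [NeZero M] (m ℓ : ℕ), ℓ.Prime → ¬ ℓ ∣ m * M →
      ((ℓ ≠ 2 ∧ 4 ∣ M) ∨ (ℓ = 2 ∧ 9 ∣ M)) →
      ∀ A : ValuationSubring Qb, A.LiesOverPrime ℓ → KummerRedInj M A m) :
    ∀ m ℓ : ℕ, ℓ.Prime → ¬ ℓ ∣ m * N → ∀ A : ValuationSubring Qb, A.LiesOverPrime ℓ →
      KummerRedInj N A m := by
  intro m ℓ hℓ hdvd A hA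
  have hm : 0 < m := by
    rcases Nat.eq_zero_or_pos m with rfl | h
    · exact absurd (by simp) hdvd
    · exact h
  have hℓm : ¬ ℓ ∣ m := fun h => hdvd (Dvd.dvd.mul_right h N)
  have hℓN : ¬ ℓ ∣ N := fun h => hdvd (Dvd.dvd.mul_left h m)
  have hN0 : N ≠ 0 := NeZero.ne N
  by_cases h2 : ℓ = 2
  · -- `ℓ = 2`: use `M = lcm N 9`
    haveI : NeZero (Nat.lcm N 9) := ⟨Nat.lcm_ne_zero hN0 (by norm_num)⟩
    have hℓM : ¬ ℓ ∣ m * Nat.lcm N 9 := by
      intro hd
      rcases (Nat.Prime.dvd_mul hℓ).mp hd with hd | hd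
      · exact hℓm hd
      · have hd' : ℓ ∣ N * 9 := hd.trans (Nat.lcm_dvd_mul N 9)
        rcases (Nat.Prime.dvd_mul hℓ).mp hd' with hd'' | hd''
        · exact hℓN hd''
        · subst h2
          omega
    exact kummerRedInj_of_lcm (M := Nat.lcm N 9) (Or.inr rfl) A hm
      (hgood (Nat.lcm N 9) m ℓ hℓ hℓM (Or.inr ⟨h2, Nat.dvd_lcm_right N 9⟩) A hA)
  · -- `ℓ` odd: use `M = lcm N 4`
    haveI : NeZero (Nat.lcm N 4) := ⟨Nat.lcm_ne_zero hN0 (by norm_num)⟩
    have hℓM : ¬ ℓ ∣ m * Nat.lcm N 4 := by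
      intro hd
      rcases (Nat.Prime.dvd_mul hℓ).mp hd with hd | hd
      · exact hℓm hd
      · have hd' : ℓ ∣ N * 4 := hd.trans (Nat.lcm_dvd_mul N 4)
        rcases (Nat.Prime.dvd_mul hℓ).mp hd' with hd'' | hd''
        · exact hℓN hd''
        · have h4 : ℓ ∣ 2 ^ 2 := by norm_num; exact hd''
          have := (Nat.prime_dvd_prime_iff_eq hℓ Nat.prime_two).mp (hℓ.dvd_of_dvd_pow h4)
          exact h2 this
    exact kummerRedInj_of_lcm (M := Nat.lcm N 4) (Or.inl rfl) A hm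
      (hgood (Nat.lcm N 4) m ℓ hℓ hℓM (Or.inl ⟨h2, Nat.dvd_lcm_right N 4⟩) A hA)

end Fermat.Agent.Gateway.Descent
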