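import Mathlib

set_option autoImplicit false

noncomputable section

open IntermediateField

namespace Fermat.Agent.Gateway.Descent.Tower

variable {K Ω : Type*} [Field K] [Field Ω] [Algebra K Ω]

/-- The algebra structure of a bigger intermediate field over a smaller one. -/
abbrev inclAlgebra {A B : IntermediateField K Ω} (h : A ≤ B) : Algebra A B :=
  (IntermediateField.inclusion h).toRingHom.toAlgebra

theorem finrank_inclusion {A B : IntermediateField K Ω} (h : A ≤ B) :
    @Module.finrank A B _ _ (inclAlgebra h).toModule = relfinrank A B := by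
  rw [relfinrank_eq_finrank_of_le h]
  let _ := inclAlgebra h
  let e : B ≃+* (extendScalars h) :=
    { toFun := fun x => ⟨x.1, x.2⟩
      invFun := fun x => ⟨x.1, x.2⟩
      left_inv := fun _ => rfl
      right_inv := fun _ => rfl
      map_mul' := fun _ _ => rfl
      map_add' := fun _ _ => rfl }
  refine Algebra.finrank_eq_of_equiv_equiv (RingEquiv.refl A) e ?_
  ext x
  rfl

/-- `[A : K(x)]`, computed inside `A`, is the relative degree of `A` over `K(x)` in `Ω`. -/
theorem finrank_adjoin_simple (A : IntermediateField K Ω) (x : Ω) (hx : x ∈ A) :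
    Module.finrank K⟮(⟨x, hx⟩ : A)⟯ A = relfinrank K⟮x⟯ A := by
  have h1 : (K⟮(⟨x, hx⟩ : A)⟯).map A.val = K⟮x⟯ := by
    rw [adjoin_map, Set.image_singleton]
    rfl
  have h2 : (⊤ : IntermediateField K A).map A.val = A := by
    rw [← AlgHom.fieldRange_eq_map, fieldRange_val]
  rw [← relfinrank_top_right, ← relfinrank_map_map _ _ A.val, h1, h2]

/-- Tower law for `K(x) ≤ A ≤ B`. -/
theorem finrank_mul_finrank_inclusion {A B : IntermediateField K Ω} (h : A ≤ B) (x : Ω)
    (hx : x ∈ A) :
    Module.finrank K⟮(⟨x, hx⟩ : A)⟯ A * @Module.finrank A B _ _ (inclAlgebra h).toModule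
      = Module.finrank K⟮(⟨x, h hx⟩ : B)⟯ B := by
  rw [finrank_inclusion h, finrank_adjoin_simple A x hx, finrank_adjoin_simple B x (h hx)]
  have hxA : K⟮x⟯ ≤ A := by
    rw [adjoin_simple_le_iff]
    exact hx
  exact relfinrank_mul_relfinrank hxA h

end Fermat.Agent.Gateway.Descent.Tower
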