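import Fermat.Agent.Gateway.Descent.Cusp
import Fermat.Agent.Gateway.Descent.Tower
import Fermat.Prelude.Def_AlgebraicCurve_DivisorPushPull

/-!
# P-GATEWAY (c), T1.f DESCENT: the inclusion `F_N ⊆ F_M` for `N ∣ M`

* `incl h : FF N →ₐ[Kbar] FF M` (the inclusion of subfields of `Kbar((q))`);
* `psi_mul_finrank` : `ψ(N) * [F_M : F_N] = ψ(M)`;
* `exists_place_le_ramificationIndex_mul` : a place `w` of `F_M` (the cusp `0`) whose
  ramification index over `F_N` satisfies `M ≤ e * N`;
* `finrank_lt_two_mul_ramificationIndex` : if `ψ(M) * N < 2 * M * ψ(N)` then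
  `[F_M : F_N] < 2 * e`.
-/

set_option autoImplicit false
set_option linter.style.haveILetI false

noncomputable section

open AlgebraicCurve IntermediateField ModularCurve

namespace Fermat.Agent.Gateway.Descent.Incl

open Fermat.Agent.S24 Fermat.Agent.S24.Setup

theorem laurentBaseChange_mono (L : Type*) [Field L] [Algebra ℚ L]
    {F₀ F₁ : IntermediateField ℚ (LaurentSeries ℚ)} (h : F₀ ≤ F₁) :
    laurentBaseChange L F₀ ≤ laurentBaseChange L F₁ := by
  rw [laurentBaseChange, IntermediateField.adjoin_le_iff]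
  rintro _ ⟨y, hy, rfl⟩
  exact coeffEmb_mem_laurentBaseChange L (h hy)

variable {N M : ℕ} [NeZero N] [NeZero M]

theorem le_of_dvd (h : N ∣ M) : modularFunctionFieldBar N ≤ modularFunctionFieldBar M :=
  laurentBaseChange_mono Kbar (full_degeneracy_le h)

/-- The inclusion `F_N ⊆ F_M` for `N ∣ M`. -/
def incl (h : N ∣ M) : FF N →ₐ[Kbar] FF M := IntermediateField.inclusion (le_of_dvd h)

@[simp] theorem coe_incl (h : N ∣ M) (x : FF N) :
    ((incl h x : FF M) : LaurentSeries Kbar) = (x : LaurentSeries Kbar) :=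
  IntermediateField.coe_inclusion _ x

theorem incl_jF (h : N ∣ M) : incl h (jF N) = jF M :=
  Subtype.ext (coe_incl h (jF N))

/-- `F_M` as an algebra over `F_N`. -/
abbrev algebraIncl (h : N ∣ M) : Algebra (FF N) (FF M) := Tower.inclAlgebra (le_of_dvd h)

theorem algebraMap_incl (h : N ∣ M) (x : FF N) :
    @algebraMap (FF N) (FF M) _ _ (algebraIncl h) x = incl h x := rfl

theorem isScalarTower_incl (h : N ∣ M) :
    @IsScalarTower Kbar (FF N) (FF M) _ (algebraIncl h).toSMul _ := by
  let _ := algebraIncl h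
  exact IsScalarTower.of_algebraMap_eq fun c => ((incl h).commutes c).symm

/-- `ψ(N) * [F_M : F_N] = ψ(M)`. -/
theorem psi_mul_finrank (h : N ∣ M) :
    dedekindPsi N * @Module.finrank (FF N) (FF M) _ _ (algebraIncl h).toModule
      = dedekindPsi M := by
  have h1 := Tower.finrank_mul_finrank_inclusion (le_of_dvd h) (jK 1) (jK_mem N (one_dvd N))
  have h2 : Module.finrank Kbar⟮(⟨jK 1, jK_mem N (one_dvd N)⟩ : FF N)⟯ (FF N) = dedekindPsi N :=
    Cusp.finrank_FF N
  have h3 : Module.finrank
      Kbar⟮(⟨jK 1, le_of_dvd h (jK_mem N (one_dvd N))⟩ : FF M)⟯ (FF M) = dedekindPsi M :=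
    Cusp.finrank_FF M
  rw [h2, h3] at h1
  exact h1

theorem dedekindPsi_pos (n : ℕ) [NeZero n] : 0 < dedekindPsi n := by
  rw [← PartV.index_Gamma0]
  have : (CongruenceSubgroup.Gamma0 n).FiniteIndex := inferInstance
  exact Nat.pos_of_ne_zero (Subgroup.FiniteIndex.index_ne_zero)

theorem finrank_pos (h : N ∣ M) :
    0 < @Module.finrank (FF N) (FF M) _ _ (algebraIncl h).toModule := by
  have h1 := psi_mul_finrank h
  have h2 := dedekindPsi_pos M
  rcases Nat.eq_zero_or_pos
    (@Module.finrank (FF N) (FF M) _ _ (algebraIncl h).toModule) with h0 | h0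
  · rw [h0, mul_zero] at h1
    omega
  · exact h0

theorem finiteDimensional_incl (h : N ∣ M) :
    @FiniteDimensional (FF N) (FF M) _ _ (algebraIncl h).toModule := by
  let _ := algebraIncl h
  exact Module.finite_of_finrank_pos (finrank_pos h)

theorem isIntegral_incl (h : N ∣ M) :
    @Algebra.IsIntegral (FF N) (FF M) _ _ (algebraIncl h) := by
  let _ := algebraIncl h
  have := finiteDimensional_incl h
  exact Algebra.IsIntegral.of_finite _ _

/-- A place `w` of `F_M` (the cusp `0`) whose ramification index `e` over `F_N` satisfies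
`M ≤ e * N`. -/
theorem exists_place_le_ramificationIndex_mul (h : N ∣ M) :
    letI := algebraIncl h
    ∃ w : Place Kbar (FF M), (M : ℤ) ≤ (w.ramificationIndex (FF N) : ℤ) * N := by
  letI := algebraIncl h
  haveI := isScalarTower_incl h
  haveI := isIntegral_incl h
  obtain ⟨w, hw⟩ := Cusp.exists_place_ord_inv_jF_eq M
  refine ⟨w, ?_⟩
  have h1 := w.ord_restrict (F := FF N) (jF N)⁻¹
  have h2 : algebraMap (FF N) (FF M) (jF N)⁻¹ = (jF M)⁻¹ := by
    rw [map_inv₀, algebraMap_incl, incl_jF]
  rw [h2, hw] at h1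
  have h3 := Cusp.ord_inv_jF_le N (w.restrict (FF N))
  have h4 : (0 : ℤ) ≤ (w.ramificationIndex (FF N) : ℤ) := Int.natCast_nonneg _
  calc (M : ℤ) = (w.ramificationIndex (FF N) : ℤ) * (w.restrict (FF N)).ord (jF N)⁻¹ := h1
    _ ≤ (w.ramificationIndex (FF N) : ℤ) * N := mul_le_mul_of_nonneg_left h3 h4

/-- If `ψ(M) * N < 2 * M * ψ(N)`, the cusp `0` of `F_M` has ramification index `e` over `F_N`
with `[F_M : F_N] < 2 * e`. -/
theorem exists_place_finrank_lt (h : N ∣ M)
    (hlt : dedekindPsi M * N < 2 * M * dedekindPsi N) :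
    letI := algebraIncl h
    ∃ w : Place Kbar (FF M),
      Module.finrank (FF N) (FF M) < 2 * w.ramificationIndex (FF N) := by
  letI := algebraIncl h
  obtain ⟨w, hw⟩ := exists_place_le_ramificationIndex_mul h
  refine ⟨w, ?_⟩
  have h1 := psi_mul_finrank h
  have hψ := dedekindPsi_pos N
  have hN : 0 < N := Nat.pos_of_neZero N
  set n := Module.finrank (FF N) (FF M) with hn
  set e := w.ramificationIndex (FF N) with he
  have hw' : M ≤ e * N := by exact_mod_cast hw
  -- n * ψ(N) * N = ψ(M) * N < 2 * M * ψ(N) ≤ 2 * e * N * ψ(N)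
  have h2 : n * (dedekindPsi N * N) < (2 * e) * (dedekindPsi N * N) := by
    calc n * (dedekindPsi N * N) = dedekindPsi M * N := by rw [← h1]; ring
      _ < 2 * M * dedekindPsi N := hlt
      _ ≤ 2 * (e * N) * dedekindPsi N := by gcongr
      _ = (2 * e) * (dedekindPsi N * N) := by ring
  exact lt_of_mul_lt_mul_right h2 (Nat.zero_le _)

end Fermat.Agent.Gateway.Descent.Incl
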