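import Fermat.Agent.S24.CombIndex

set_option autoImplicit false
open ModularCurve Fermat.Agent.S24.Comb

namespace Fermat.Agent.Gateway.Descent.Numerics

theorem dedekindPsi_pos {n : ℕ} (hn : n ≠ 0) : 0 < dedekindPsi n := by
  unfold dedekindPsi
  apply Finset.sum_pos'
  · intro d _
    exact Nat.zero_le _
  · refine ⟨1, ?_, ?_⟩
    · simp [hn]
    · simpa using Nat.pos_of_ne_zero hn

/-- The numerical inequality needed for the descent from level `lcm N p²` to level `N`. -/
theorem psi_lcm_sq_lt {p : ℕ} (hp : p.Prime) {N : ℕ} (hN : N ≠ 0) :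
    dedekindPsi (Nat.lcm N (p ^ 2)) * N < 2 * Nat.lcm N (p ^ 2) * dedekindPsi N := by
  have hψ := dedekindPsi_pos hN
  have hNpos : 0 < N := Nat.pos_of_ne_zero hN
  have hp2 : 2 ≤ p := hp.two_le
  by_cases h1 : p ∣ N
  · by_cases h2 : p ^ 2 ∣ N
    · have hl : Nat.lcm N (p ^ 2) = N := Nat.lcm_eq_left h2
      rw [hl]
      nlinarith
    · obtain ⟨N', rfl⟩ := h1
      have hN' : N' ≠ 0 := fun h => hN (by rw [h, mul_zero])
      have hpN' : ¬ p ∣ N' := by
        intro hd
        apply h2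
        rw [pow_two]
        exact Nat.mul_dvd_mul_left p hd
      have hcop : Nat.Coprime N' p := ((Nat.Prime.coprime_iff_not_dvd hp).mpr hpN').symm
      have hl : Nat.lcm (p * N') (p ^ 2) = p * N' * p := by
        rw [pow_two, Nat.lcm_mul_left, hcop.lcm_eq_mul, mul_assoc]
      rw [hl, dedekindPsi_mul_prime_of_dvd hN hp (Dvd.intro _ rfl)]
      have : 0 < p * dedekindPsi (p * N') * (p * N') := by positivity
      nlinarith
  · have hcop : Nat.Coprime N (p ^ 2) :=
      Nat.Coprime.pow_right 2 ((Nat.Prime.coprime_iff_not_dvd hp).mpr h1).symm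
    have hl : Nat.lcm N (p ^ 2) = N * p * p := by
      rw [hcop.lcm_eq_mul, pow_two, mul_assoc]
    have hNp : N * p ≠ 0 := Nat.mul_ne_zero hN hp.ne_zero
    rw [hl, dedekindPsi_mul_prime_of_dvd hNp hp (Dvd.intro_left _ rfl),
      dedekindPsi_mul_prime_of_not_dvd hN hp h1]
    have h3 : p + 1 < 2 * p := by omega
    have h4 : 0 < p * dedekindPsi N * N := by positivity
    calc p * ((p + 1) * dedekindPsi N) * N = (p + 1) * (p * dedekindPsi N * N) := by ring
      _ < (2 * p) * (p * dedekindPsi N * N) := Nat.mul_lt_mul_of_pos_right h3 h4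
      _ = 2 * (N * p * p) * dedekindPsi N := by ring

theorem psi_lcm_four_lt {N : ℕ} (hN : N ≠ 0) :
    dedekindPsi (Nat.lcm N 4) * N < 2 * Nat.lcm N 4 * dedekindPsi N :=
  psi_lcm_sq_lt Nat.prime_two hN

theorem psi_lcm_nine_lt {N : ℕ} (hN : N ≠ 0) :
    dedekindPsi (Nat.lcm N 9) * N < 2 * Nat.lcm N 9 * dedekindPsi N :=
  psi_lcm_sq_lt Nat.prime_three hN

end Fermat.Agent.Gateway.Descent.Numerics
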