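import Fermat.Agent.Gateway.Descent.KummerNorm
import Fermat.Agent.Gateway.Descent.Incl
import Fermat.Agent.Gateway.Descent.Numerics

/-!
# P-GATEWAY (c), T1.f DESCENT `M → N`: Kummer elements descend along `F_N ⊆ F_M`

`F_N = modularFunctionFieldBar N ⊆ F_M` for `N ∣ M` (inclusion of subfields of `Kbar((q))`).
If `u ∈ F_N` has all orders divisible by `m` and becomes `c * w ^ m` in `F_M`, then already
`u = c' * w' ^ m` in `F_N`, provided `ψ(M) * N < 2 * M * ψ(N)`; this holds for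
`M = lcm N 4` and `M = lcm N 9` (more generally `M = lcm N p²`, `p` prime).

Proof: helper64's norm-formula descent `KummerNorm.exists_algebraMap_eq_of_pow_eq` applied to the
cusp `0` of `F_M`, whose ramification index over `F_N` is at least `M / N` (P-S24 place counting)
while `[F_M : F_N] = ψ(M) / ψ(N)`.
-/

set_option autoImplicit false
set_option linter.style.haveILetI false

noncomputable section

open AlgebraicCurve IntermediateField ModularCurve

namespace Fermat.Agent.Gateway.Descent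

open Fermat.Agent.S24 Fermat.Agent.S24.Setup

variable {N M : ℕ} [NeZero N] [NeZero M]

/-- **Kummer descent along the inclusion `F_N ⊆ F_M`**, general numerical form. -/
theorem kummer_descent_of_lt (hNM : N ∣ M)
    (hlt : dedekindPsi M * N < 2 * M * dedekindPsi N)
    (m : ℕ) (hm : 0 < m) (u : FF N) (hu : u ≠ 0)
    (hdiv : ∀ P : Place Kbar (FF N), (m : ℤ) ∣ P.ord u)
    (h : ∃ (c : Kbar) (w : FF M), c ≠ 0 ∧
      Incl.incl hNM u = algebraMap Kbar (FF M) c * w ^ m) :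
    ∃ (c : Kbar) (w : FF N), c ≠ 0 ∧ u = algebraMap Kbar (FF N) c * w ^ m := by
  obtain ⟨c, w, -, hcw⟩ := h
  obtain ⟨c0, hc0⟩ := IsAlgClosed.exists_pow_nat_eq c hm
  letI := Incl.algebraIncl hNM
  haveI := Incl.isScalarTower_incl hNM
  haveI := Incl.finiteDimensional_incl hNM
  haveI : FiniteDimensional Kbar⟮jF N⟯ (FF N) := Cusp.finiteDimensional_FF N
  obtain ⟨pl, hpl⟩ := Incl.exists_place_finrank_lt hNM hlt
  have hh : (algebraMap Kbar (FF M) c0 * w) ^ m = algebraMap (FF N) (FF M) u := by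
    rw [mul_pow, ← map_pow, hc0, Incl.algebraMap_incl, hcw]
  obtain ⟨g, hg⟩ := KummerNorm.exists_algebraMap_eq_of_pow_eq (jF N)
    (TransJ.transcendental_jF N) pl hpl m hm u hu (hdiv _) _ hh
  refine ⟨1, g, one_ne_zero, ?_⟩
  have key : Incl.incl hNM u = Incl.incl hNM (algebraMap Kbar (FF N) 1 * g ^ m) := by
    rw [map_one, one_mul, map_pow, ← Incl.algebraMap_incl hNM g, hg, hh, Incl.algebraMap_incl]
  exact (Incl.incl hNM).toRingHom.injective key

/-- The same with the hypothesis stated in `Kbar((q))` (no reference to `Incl.incl`). -/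
theorem kummer_descent_of_lt' (hNM : N ∣ M)
    (hlt : dedekindPsi M * N < 2 * M * dedekindPsi N)
    (m : ℕ) (hm : 0 < m) (u : FF N) (hu : u ≠ 0)
    (hdiv : ∀ P : Place Kbar (FF N), (m : ℤ) ∣ P.ord u)
    (h : ∃ (c : Kbar) (w : FF M), c ≠ 0 ∧
      (u : LaurentSeries Kbar) =
        algebraMap Kbar (LaurentSeries Kbar) c * (w : LaurentSeries Kbar) ^ m) :
    ∃ (c : Kbar) (w : FF N), c ≠ 0 ∧ u = algebraMap Kbar (FF N) c * w ^ m := by
  obtain ⟨c, w, hc, hcw⟩ := h
  refine kummer_descent_of_lt hNM hlt m hm u hu hdiv ⟨c, w, hc, ?_⟩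
  apply Subtype.ext
  rw [Incl.coe_incl, hcw]
  rfl

omit [NeZero N] [NeZero M] in
theorem dvd_of_eq_lcm {a : ℕ} (hM : M = Nat.lcm N a) : N ∣ M := hM ▸ Nat.dvd_lcm_left N a

omit [NeZero N] [NeZero M] in
theorem dvd_of_eq_lcm_or (hM : M = Nat.lcm N 4 ∨ M = Nat.lcm N 9) : N ∣ M := by
  rcases hM with h | h
  · exact dvd_of_eq_lcm h
  · exact dvd_of_eq_lcm h

omit [NeZero M] in
theorem lt_of_eq_lcm_or (hM : M = Nat.lcm N 4 ∨ M = Nat.lcm N 9) :
    dedekindPsi M * N < 2 * M * dedekindPsi N := by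
  rcases hM with h | h
  · rw [h]
    exact Numerics.psi_lcm_four_lt (NeZero.ne N)
  · rw [h]
    exact Numerics.psi_lcm_nine_lt (NeZero.ne N)

/-- **(D1) Kummer descent** from the good level `M = lcm N 4` or `lcm N 9` to level `N`, along
the inclusion `F_N ⊆ F_M`. -/
theorem kummer_descent (hM : M = Nat.lcm N 4 ∨ M = Nat.lcm N 9)
    (m : ℕ) (hm : 0 < m) (u : FF N) (hu : u ≠ 0)
    (hdiv : ∀ P : Place Kbar (FF N), (m : ℤ) ∣ P.ord u)
    (h : ∃ (c : Kbar) (w : FF M), c ≠ 0 ∧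
      Incl.incl (dvd_of_eq_lcm_or hM) u = algebraMap Kbar (FF M) c * w ^ m) :
    ∃ (c : Kbar) (w : FF N), c ≠ 0 ∧ u = algebraMap Kbar (FF N) c * w ^ m :=
  kummer_descent_of_lt (dvd_of_eq_lcm_or hM) (lt_of_eq_lcm_or hM) m hm u hu hdiv h

/-- (D1) with the hypothesis stated in `Kbar((q))`. -/
theorem kummer_descent' (hM : M = Nat.lcm N 4 ∨ M = Nat.lcm N 9)
    (m : ℕ) (hm : 0 < m) (u : FF N) (hu : u ≠ 0)
    (hdiv : ∀ P : Place Kbar (FF N), (m : ℤ) ∣ P.ord u)
    (h : ∃ (c : Kbar) (w : FF M), c ≠ 0 ∧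
      (u : LaurentSeries Kbar) =
        algebraMap Kbar (LaurentSeries Kbar) c * (w : LaurentSeries Kbar) ^ m) :
    ∃ (c : Kbar) (w : FF N), c ≠ 0 ∧ u = algebraMap Kbar (FF N) c * w ^ m :=
  kummer_descent_of_lt' (dvd_of_eq_lcm_or hM) (lt_of_eq_lcm_or hM) m hm u hu hdiv h

end Fermat.Agent.Gateway.Descent
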