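import Fermat.Agent.S24.Main
import Fermat.Agent.S24.EmbedTheta
import Fermat.Agent.S24.HDeg

/-!
# P-GATEWAY (c), T1.f DESCENT: facts extracted from P-S24

For every level `N` (function field `FF N = modularFunctionFieldBar N` over `Kbar`):

* `finrank_FF` : `[F_N : Kbar(j)] = ψ(N)`;
* `exists_cuspPlaces` : the places of `F_N` over `j = ∞` are parametrised by the cosets
  `SL(2,ℤ) ⧸ Γ₀(N)`; the place attached to `b` has `ord (1/j)` equal to the period of `T` at `b`;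
* `exists_place_ord_inv_jF_eq` : there is a place with `ord (1/j) = N` ("the cusp `0`");
* `ord_inv_jF_le` : every place has `ord (1/j) ≤ N`.
-/

set_option autoImplicit false

noncomputable section

open AlgebraicCurve IntermediateField ModularCurve CongruenceSubgroup
open scoped MatrixGroups

namespace Fermat.Agent.Gateway.Descent.Cusp

open Fermat.Agent.S24 Fermat.Agent.S24.Setup

variable (N : ℕ) [NeZero N]

/-- The degree bound of P-S24, unconditionally. -/
theorem hdeg : ∀ a ∈ (Algebra.adjoin Kbar (genSetF N) : Set (FF N)),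
    ∃ p : Polynomial Kbar⟮jF N⟯, p ≠ 0 ∧ p.natDegree ≤ (Gamma0 N).index ∧
      Polynomial.aeval a p = 0 :=
  EmbedTheta.hdeg_of N (fun θ hfix hgr hper a hq => HDeg.exists_poly N θ hfix hgr hper a hq)

theorem isAlgebraic_gen : ∀ g ∈ genSetF N, IsAlgebraic Kbar⟮jF N⟯ g := by
  intro g hg
  obtain ⟨p, hp0, -, hpa⟩ := hdeg N g (Algebra.subset_adjoin hg)
  exact ⟨p, hp0, hpa⟩

/-- `F_N` is finite over `Kbar(j)`. -/
theorem finiteDimensional_FF : FiniteDimensional Kbar⟮jF N⟯ (FF N) := by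
  obtain ⟨D, -⟩ := Embed.exists_embData' N
  exact (Conj.finrank_and_norm D (GenRing.exists_div N (isAlgebraic_gen N)) (hdeg N)).1

/-- `[F_N : Kbar(j)] = ψ(N)`. -/
theorem finrank_FF : Module.finrank Kbar⟮jF N⟯ (FF N) = dedekindPsi N := by
  obtain ⟨D, -⟩ := Embed.exists_embData' N
  rw [(Conj.finrank_and_norm D (GenRing.exists_div N (isAlgebraic_gen N)) (hdeg N)).2.1,
    PartV.index_Gamma0]

/-- The places of `F_N` over `j = ∞` are parametrised by the cosets of `Γ₀(N)`, the place of the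
coset `b` having `ord (1/j)` equal to the period of `T` at `b`. -/
theorem exists_cuspPlaces :
    ∃ β : (SL(2, ℤ) ⧸ Gamma0 N) → ZeroPlace Kbar (jF N)⁻¹, Function.Surjective β ∧
      ∀ b, ((β b).1.ord (jF N)⁻¹ : ℤ) = (Function.minimalPeriod
        (MulAction.toPerm ModularGroup.T : Equiv.Perm (SL(2, ℤ) ⧸ Gamma0 N)) b : ℕ) := by
  classical
  obtain ⟨D, hD⟩ := Embed.exists_embData' N
  obtain ⟨hfd, -, hnorm⟩ :=
    Conj.finrank_and_norm D (GenRing.exists_div N (isAlgebraic_gen N)) (hdeg N)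
  have hinf := AssembleInf.pcInput_inf D (fun x g => hD.isCuspMer_smul x g) hnorm
  have hx : Transcendental Kbar (jF N) := TransJ.transcendental_jF N
  have hta := RH.transcendental_inv hx
  have hy : (jF N)⁻¹ ≠ 0 := fun h0 => hta (h0 ▸ isAlgebraic_zero)
  have hxy : Kbar⟮(jF N)⁻¹⟯ = Kbar⟮jF N⟯ := RH.adjoin_inv (jF N)
  have : FiniteDimensional Kbar⟮(jF N)⁻¹⟯ (FF N) := Final.finiteDimensional_congr hxy.symm hfd
  have P : ZeroPlacesData Kbar (jF N)⁻¹ := ZP.zeroPlacesData _ hta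
  obtain ⟨m, w, b0, hm, hw, ha, hNn, hc, hper, hd⟩ := hinf
  obtain ⟨β, hs, -, hord, -⟩ := placeCount (K := Kbar) (jF N)⁻¹ hy P _ m hm w hw ha b0
    (fun f hf => by rw [hNn f hf, Final.algebraMap_norm_congr hxy.symm f]) hc hper hd
  exact ⟨β, hs, hord⟩

/-! ### The period of `T` at the coset of `S` -/

theorem entry_aux (k : ℕ) :
    (((ModularGroup.T ^ k * ModularGroup.S)⁻¹ * ModularGroup.S : SL(2, ℤ)) :
      Matrix (Fin 2) (Fin 2) ℤ) 1 0 = (k : ℤ) := by
  have h1 : (ModularGroup.T ^ k * ModularGroup.S)⁻¹ * ModularGroup.S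
      = ModularGroup.S⁻¹ * ModularGroup.T ^ (-(k : ℤ)) * ModularGroup.S := by
    rw [mul_inv_rev, zpow_neg, zpow_natCast]
  rw [h1]
  have hT : ((ModularGroup.T ^ (-(k : ℤ)) : SL(2, ℤ)) : Matrix (Fin 2) (Fin 2) ℤ)
      = !![1, -(k : ℤ); 0, 1] := ModularGroup.coe_T_zpow _
  rw [Matrix.SpecialLinearGroup.coe_mul, Matrix.SpecialLinearGroup.coe_mul, hT,
    Matrix.SpecialLinearGroup.coe_inv, ModularGroup.coe_S]
  simp [Matrix.adjugate_fin_two, Matrix.mul_apply, Fin.sum_univ_two]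

omit [NeZero N] in
theorem T_pow_smul_S_iff (k : ℕ) :
    ModularGroup.T ^ k • ((ModularGroup.S : SL(2, ℤ)) : SL(2, ℤ) ⧸ Gamma0 N)
      = ((ModularGroup.S : SL(2, ℤ)) : SL(2, ℤ) ⧸ Gamma0 N) ↔ N ∣ k := by
  have h1 : ModularGroup.T ^ k • ((ModularGroup.S : SL(2, ℤ)) : SL(2, ℤ) ⧸ Gamma0 N)
      = ((ModularGroup.T ^ k * ModularGroup.S : SL(2, ℤ)) : SL(2, ℤ) ⧸ Gamma0 N) := rfl
  rw [h1, QuotientGroup.eq, Gamma0_mem, entry_aux]
  simp [ZMod.natCast_eq_zero_iff]

/-- The cusp `0` has width `N`. -/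
theorem minimalPeriod_S :
    Function.minimalPeriod
      (MulAction.toPerm ModularGroup.T : Equiv.Perm (SL(2, ℤ) ⧸ Gamma0 N))
      ((ModularGroup.S : SL(2, ℤ)) : SL(2, ℤ) ⧸ Gamma0 N) = N := by
  apply Nat.dvd_antisymm
  · apply Function.IsPeriodicPt.minimalPeriod_dvd
    show _ = _
    rw [AssembleInf.toPerm_iterate, T_pow_smul_S_iff]
  · rw [← T_pow_smul_S_iff N, ← AssembleInf.toPerm_iterate]
    exact Function.isPeriodicPt_minimalPeriod _ _

/-- There is a place of `F_N` ("the cusp `0`") at which `1/j` vanishes to order `N`. -/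
theorem exists_place_ord_inv_jF_eq : ∃ w : Place Kbar (FF N), w.ord (jF N)⁻¹ = N := by
  obtain ⟨β, -, hord⟩ := exists_cuspPlaces N
  exact ⟨(β ((ModularGroup.S : SL(2, ℤ)) : SL(2, ℤ) ⧸ Gamma0 N)).1, by
    rw [hord, minimalPeriod_S]⟩

/-- At every place of `F_N` the function `1/j` vanishes to order at most `N`. -/
theorem ord_inv_jF_le (v : Place Kbar (FF N)) : v.ord (jF N)⁻¹ ≤ N := by
  by_cases h : 0 < v.ord (jF N)⁻¹
  · obtain ⟨β, hs, hord⟩ := exists_cuspPlaces N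
    obtain ⟨b, hb⟩ := hs ⟨v, h⟩
    have h1 := hord b
    rw [hb] at h1
    rw [h1]
    exact_mod_cast Nat.le_of_dvd (Nat.pos_of_neZero N) (AssembleInf.minimalPeriod_T_dvd N b)
  · have : (0 : ℤ) ≤ N := Int.natCast_nonneg N
    omega

end Fermat.Agent.Gateway.Descent.Cusp
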