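import Fermat.Agent.Gateway.HK1.Ext
import Fermat.Agent.S24.Approx

/-!
# P-GATEWAY (c), DESCENT (D3), abstract part: base change of push-forward along a square

Function fields `F ⊆ F₁`, `F ⊆ F₂`, `F₁, F₂ ⊆ F₁₂` over `K` (finite extensions, commutative
square) such that the norm is compatible: `N_{F₁₂/F₂}(t) = N_{F₁/F}(t)` for `t ∈ F₁`
(linear disjointness).  Then on divisors

  `pullback_{F → F₂} ∘ pushforward_{F₁ → F} = pushforward_{F₁₂ → F₂} ∘ pullback_{F₁ → F₁₂}`.

Locally this is `∑_{Q' | P', Q} e(Q'|P') f(Q'|Q) = e(Q|P) f(P'|P)`, proved with the norm formula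
(`HK1/Ext.lean`) and weak approximation at the places of `F₁` over `P` (`S24/Approx.lean`).

Also: functoriality of the pull-back of divisors in towers (ramification indices multiply).
-/

set_option autoImplicit false
set_option linter.unusedSectionVars false
set_option linter.style.haveILetI false

noncomputable section

open AlgebraicCurve IsDedekindDomain

namespace Fermat.Agent.Gateway.Descent.BaseChangeSq

open Fermat.Agent.S24 Fermat.Agent.Gateway

/-! ### Towers -/

section Tower

variable {K F F' F'' : Type*} [Field K] [Field F] [Field F'] [Field F'']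
  [Algebra K F] [Algebra K F'] [Algebra K F'']
  [Algebra F F'] [Algebra F' F''] [Algebra F F'']
  [IsScalarTower K F F'] [IsScalarTower K F' F''] [IsScalarTower K F F'']
  [IsScalarTower F F' F'']
  [Algebra.IsIntegral F F'] [Algebra.IsIntegral F' F''] [Algebra.IsIntegral F F'']

theorem restrict_restrict (w : Place K F'') : (w.restrict F').restrict F = w.restrict F := by
  apply Place.ext
  ext x
  rw [Place.restrict_toValuationSubring, ValuationSubring.mem_comap,
    Place.restrict_toValuationSubring, ValuationSubring.mem_comap,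
    Place.restrict_toValuationSubring, ValuationSubring.mem_comap,
    ← IsScalarTower.algebraMap_apply]

theorem ramificationIndex_tower (w : Place K F'') :
    w.ramificationIndex F = w.ramificationIndex F' * (w.restrict F').ramificationIndex F := by
  obtain ⟨x, hx⟩ := ZD.PlaceLemmas.exists_ord_eq_one (w.restrict F)
  have h1 := w.ord_restrict (F := F) x
  have h2 := w.ord_restrict (F := F') (algebraMap F F' x)
  have h3 := (w.restrict F').ord_restrict (F := F) x
  rw [← IsScalarTower.algebraMap_apply, h1, h3, restrict_restrict] at h2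
  have hne : (w.restrict F).ord x ≠ 0 := by omega
  have h4 : ((w.ramificationIndex F : ℕ) : ℤ) =
      ((w.ramificationIndex F' * (w.restrict F').ramificationIndex F : ℕ) : ℤ) := by
    push_cast
    apply mul_right_cancel₀ hne
    rw [h2]; ring
  exact_mod_cast h4

variable [HasPrincipalDivisors K F'] [HasPrincipalDivisors K F'']

/-- **Functoriality of the pull-back of divisors.** -/
theorem pullback_pullback (D : Divisor K F) :
    Divisor.pullback F'' (Divisor.pullback F' D) = Divisor.pullback F'' D := by
  ext w
  rw [Divisor.pullback_apply, Divisor.pullback_apply, Divisor.pullback_apply,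
    restrict_restrict, ramificationIndex_tower (F := F) (F' := F') w]
  push_cast
  ring

end Tower

/-! ### Weak approximation in a fibre -/

section Approx

variable {K F F' : Type*} [Field K] [Field F] [Field F'] [Algebra K F] [Algebra K F']
  [Algebra F F'] [IsScalarTower K F F'] [FiniteDimensional F F'] [PerfectField F]
  [HasPrincipalDivisors K F']

set_option maxHeartbeats 1000000 in
/-- For a place `w` of `F'` over `v` there is `t` with `ord_w t = 1` and `ord_{w'} t = 0` at
every other place `w'` over `v`. -/
theorem exists_ord_eq_one_fiber (v : Place K F) (w : Place K F') (hw : w.restrict F = v) :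
    ∃ t : F', t ≠ 0 ∧ w.ord t = 1 ∧
      ∀ w' : Place K F', w'.restrict F = v → w' ≠ w → w'.ord t = 0 := by
  let A := ↥v.toValuationSubring
  let _ : Algebra A F' := ((algebraMap F F').comp (algebraMap A F)).toAlgebra
  have : IsScalarTower A F F' := IsScalarTower.of_algebraMap_eq fun _ => rfl
  have : IsScalarTower K A F' := IsScalarTower.of_algebraMap_eq fun k => by
    show algebraMap K F' k = algebraMap F F' (algebraMap A F (algebraMap K A k))
    rw [← IsScalarTower.algebraMap_apply K A F, ← IsScalarTower.algebraMap_apply K F F']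
  have : Module.IsTorsionFree A F' := Module.isTorsionFree_iff_algebraMap_injective.mpr
    ((algebraMap F F').injective.comp (IsFractionRing.injective A F))
  let B := integralClosure A F'
  have : IsDedekindDomain B := integralClosure.isDedekindDomain A F F'
  have : IsFractionRing B F' := integralClosure.isFractionRing_of_finite_extension F F'
  have hvp : PD.placeOfPrime (K := K) (F := F) v.heightOneSpectrum = v :=
    HK1.placeOfPrime_heightOneSpectrum v
  have hB : ∀ w' : Place K F', w'.restrict F = v →
      ∀ b : B, algebraMap B F' b ∈ w'.toValuationSubring := by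
    intro w' hw' b
    exact HK1.algebraMap_mem_of_restrict_eq (K := K) (F := F) (F' := F') (B := B)
      v.heightOneSpectrum w' (hw'.trans hvp.symm) b
  -- an element of `A` vanishing at `v`
  obtain ⟨x, hx⟩ := ZD.PlaceLemmas.exists_ord_eq_one v
  have hx0 : x ≠ 0 := by
    rintro rfl
    rw [Place.ord_zero] at hx
    exact zero_ne_one hx
  have hxA : x ∈ v.toValuationSubring := by
    rw [ZD.PlaceLemmas.mem_iff_ord]; right; rw [hx]; exact zero_le_one
  let a : A := ⟨x, hxA⟩
  let c : B := algebraMap A B a
  have hcF : algebraMap B F' c = algebraMap F F' x := by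
    show algebraMap B F' (algebraMap A B a) = algebraMap F F' x
    rw [← IsScalarTower.algebraMap_apply A B F']
    rfl
  have hc : c ≠ 0 := by
    intro h0
    have h1 : algebraMap B F' c = 0 := by rw [h0, map_zero]
    rw [hcF] at h1
    exact hx0 ((map_eq_zero_iff _ (algebraMap F F').injective).mp h1)
  obtain ⟨t, ht0, ht1, ht⟩ :=
    Approx.exists_ord_eq_one_of_dedekind (K := K) (F := F') c hc w (hB w hw)
  refine ⟨t, ht0, ht1, fun w' hw' hne => ht w' (hB w' hw') ?_ hne⟩
  rw [hcF, w'.ord_restrict (F := F) x, hw', hx, mul_one]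
  have := w'.ramificationIndex_pos (F := F)
  exact_mod_cast this

end Approx

/-! ### The square -/

section Square

variable {K F F₁ F₂ F₁₂ : Type*} [Field K] [Field F] [Field F₁] [Field F₂] [Field F₁₂]
  [Algebra K F] [Algebra K F₁] [Algebra K F₂] [Algebra K F₁₂]
  [Algebra F F₁] [Algebra F F₂] [Algebra F₁ F₁₂] [Algebra F₂ F₁₂]
  [IsScalarTower K F F₁] [IsScalarTower K F F₂] [IsScalarTower K F₁ F₁₂]
  [IsScalarTower K F₂ F₁₂]
  [FiniteDimensional F F₁] [FiniteDimensional F F₂] [FiniteDimensional F₁ F₁₂]
  [FiniteDimensional F₂ F₁₂]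
  [PerfectField F] [PerfectField F₂]
  [HasPrincipalDivisors K F₁] [HasPrincipalDivisors K F₂] [HasPrincipalDivisors K F₁₂]

/-- In a commutative square the two restrictions to the bottom field agree. -/
theorem restrict_sq
    (hsq : ∀ x : F, algebraMap F₁ F₁₂ (algebraMap F F₁ x) = algebraMap F₂ F₁₂ (algebraMap F F₂ x))
    (w : Place K F₁₂) : (w.restrict F₁).restrict F = (w.restrict F₂).restrict F := by
  apply Place.ext
  ext x
  rw [Place.restrict_toValuationSubring, ValuationSubring.mem_comap,
    Place.restrict_toValuationSubring, ValuationSubring.mem_comap,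
    Place.restrict_toValuationSubring, ValuationSubring.mem_comap,
    Place.restrict_toValuationSubring, ValuationSubring.mem_comap, hsq]

open Classical in
/-- **Local base change identity**:
`∑_{Q' | P', Q} e(Q'|P') f(Q'|Q) = e(Q|P) f(P'|P)`. -/
theorem sum_filter_ramificationIndex_mul_inertiaDeg
    (hsq : ∀ x : F, algebraMap F₁ F₁₂ (algebraMap F F₁ x) = algebraMap F₂ F₁₂ (algebraMap F F₂ x))
    (hnorm : ∀ t : F₁, Algebra.norm F₂ (algebraMap F₁ F₁₂ t) = algebraMap F F₂ (Algebra.norm F t))
    (P' : Place K F₁) (Q : Place K F₂) (h : P'.restrict F = Q.restrict F) :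
    ∑ Q' ∈ (Q.fiber F₁₂).filter (fun Q' => Q'.restrict F₁ = P'),
        (Q'.ramificationIndex F₁ : ℤ) * (Q'.inertiaDeg F₂ : ℤ) =
      (Q.ramificationIndex F : ℤ) * (P'.inertiaDeg F : ℤ) := by
  obtain ⟨t, ht0, ht1, ht⟩ := exists_ord_eq_one_fiber (P'.restrict F) P' rfl
  have hg0 : algebraMap F₁ F₁₂ t ≠ 0 := by
    rwa [Ne, map_eq_zero_iff _ (algebraMap F₁ F₁₂).injective]
  have h1 := HK1.sum_ord_mul_inertiaDeg_place (K := K) (F := F₂) (F' := F₁₂) Q hg0
  have h2 := HK1.sum_ord_mul_inertiaDeg_place (K := K) (F := F) (F' := F₁) (Q.restrict F) ht0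
  -- the left side of `h1`
  have hL : ∑ w ∈ Q.fiber F₁₂, w.ord (algebraMap F₁ F₁₂ t) * (w.inertiaDeg F₂ : ℤ) =
      ∑ Q' ∈ (Q.fiber F₁₂).filter (fun Q' => Q'.restrict F₁ = P'),
        (Q'.ramificationIndex F₁ : ℤ) * (Q'.inertiaDeg F₂ : ℤ) := by
    rw [Finset.sum_filter]
    refine Finset.sum_congr rfl fun w hw => ?_
    have hwQ : w.restrict F₂ = Q := Place.mem_fiber.mp hw
    have hwP : (w.restrict F₁).restrict F = P'.restrict F := by
      rw [restrict_sq hsq w, hwQ, h]
    rw [w.ord_restrict (F := F₁) t]
    by_cases hwe : w.restrict F₁ = P'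
    · rw [if_pos hwe, hwe, ht1, mul_one]
    · rw [if_neg hwe, ht _ hwP hwe, mul_zero, zero_mul]
  -- the left side of `h2`
  have hR : ∑ w ∈ (Q.restrict F).fiber F₁, w.ord t * (w.inertiaDeg F : ℤ) =
      (P'.inertiaDeg F : ℤ) := by
    rw [Finset.sum_eq_single_of_mem P' (Place.mem_fiber.mpr h), ht1, one_mul]
    intro w hw hne
    rw [ht w ((Place.mem_fiber.mp hw).trans h.symm) hne, zero_mul]
  rw [← hL, h1, hnorm, Q.ord_restrict (F := F), ← h2, hR]

open Classical in
/-- **Base change**: `i^* ∘ a_* = a'_* ∘ i'^*` on divisors. -/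
theorem pullback_pushforward
    (hsq : ∀ x : F, algebraMap F₁ F₁₂ (algebraMap F F₁ x) = algebraMap F₂ F₁₂ (algebraMap F F₂ x))
    (hnorm : ∀ t : F₁, Algebra.norm F₂ (algebraMap F₁ F₁₂ t) = algebraMap F F₂ (Algebra.norm F t))
    (D : Divisor K F₁) :
    Divisor.pullback F₂ (Divisor.pushforward F D) =
      Divisor.pushforward F₂ (Divisor.pullback F₁₂ D) := by
  induction D using Finsupp.induction with
  | zero => simp
  | single_add P' n D _ _ ih =>
    rw [map_add, map_add, map_add, map_add, ih]
    congr 1
    ext Q
    rw [Divisor.pushforward_single, Divisor.pullback_apply, Divisor.pullback_single, map_sum,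
      Finset.sum_apply']
    simp only [Divisor.pushforward_single]
    by_cases h : P'.restrict F = Q.restrict F
    · rw [h, Finsupp.single_eq_same]
      have key := sum_filter_ramificationIndex_mul_inertiaDeg hsq hnorm P' Q h
      have hset : ∑ w ∈ P'.fiber F₁₂,
          (Finsupp.single (w.restrict F₂) (n * (w.ramificationIndex F₁ : ℤ) *
            (w.inertiaDeg F₂ : ℤ))) Q =
          ∑ Q' ∈ (Q.fiber F₁₂).filter (fun Q' => Q'.restrict F₁ = P'),
            n * ((Q'.ramificationIndex F₁ : ℤ) * (Q'.inertiaDeg F₂ : ℤ)) := by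
        have e1 : ∑ w ∈ P'.fiber F₁₂,
            (Finsupp.single (w.restrict F₂) (n * (w.ramificationIndex F₁ : ℤ) *
              (w.inertiaDeg F₂ : ℤ))) Q =
            ∑ w ∈ (P'.fiber F₁₂).filter (fun w => w.restrict F₂ = Q),
              n * ((w.ramificationIndex F₁ : ℤ) * (w.inertiaDeg F₂ : ℤ)) := by
          rw [Finset.sum_filter]
          refine Finset.sum_congr rfl fun w _ => ?_
          by_cases hw : w.restrict F₂ = Q
          · rw [if_pos hw, hw, Finsupp.single_eq_same, mul_assoc]
          · rw [if_neg hw, Finsupp.single_eq_of_ne (Ne.symm hw)]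
        rw [e1]
        refine Finset.sum_congr ?_ fun _ _ => rfl
        ext w
        simp only [Finset.mem_filter, Place.mem_fiber]
        exact and_comm
      rw [hset, ← Finset.mul_sum, key]
      ring
    · rw [Finsupp.single_eq_of_ne (Ne.symm h), mul_zero]
      symm
      refine Finset.sum_eq_zero fun w hw => ?_
      have hwP : w.restrict F₁ = P' := Place.mem_fiber.mp hw
      apply Finsupp.single_eq_of_ne
      intro hwQ
      apply h
      rw [← hwP, hwQ]
      exact restrict_sq hsq w

end Square

end Fermat.Agent.Gateway.Descent.BaseChangeSq
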