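import Fermat.Agent.Gateway.Descent.PicIncl
import Fermat.Agent.Gateway.GoodRed.SpanL

/-!
# P-GATEWAY (c), DESCENT (D3), modular part: the square `F_N, F_{Nℓ}, F_M, F_{Mℓ}`

For `N ∣ M` and a prime `ℓ ∤ M`:

* `exists_sum_pow_jK` / `top_le_span_jl` : `F_{Mℓ} = ∑_{e ≤ ℓ} F_M · j(q^ℓ)^e` (from the box monomial
  basis of the P-S28 tower, `GoodRed/SpanL.lean`);
* `finrank_mul_prime` : `[F_{Mℓ} : F_M] = ℓ + 1` (P-S24 degrees);
* `basisJl` : the power basis `1, j_ℓ, …, j_ℓ^ℓ` of `F_{Mℓ} / F_M`;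
* `norm_incl` : `N_{F_{Mℓ}/F_M}(t) = N_{F_{Nℓ}/F_N}(t)` for `t ∈ F_{Nℓ}`.
-/

set_option autoImplicit false
set_option linter.unusedSectionVars false
set_option linter.style.haveILetI false

noncomputable section

open AlgebraicCurve IntermediateField ModularCurve HahnSeries

namespace Fermat.Agent.Gateway.Descent.HeckeSq

open Fermat.Agent.S24 Fermat.Agent.S24.Setup Fermat.Agent.S28 Fermat.Agent.S28.Tower
  Fermat.Agent.Gateway.GoodRed Fermat.Agent.Gateway.Descent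

/-! ### Norms and bases -/

/-- Norms commute with a "base change" carrying a basis to a basis. -/
theorem norm_map_of_basis_aux {E0 E1 F0 F1 : Type*} [CommRing E0] [CommRing E1] [Algebra E0 E1]
    [CommRing F0] [CommRing F1] [Algebra F0 F1] (i0 : E0 →+* F0) (i1 : E1 →+* F1)
    (hcompat : ∀ e, i1 (algebraMap E0 E1 e) = algebraMap F0 F1 (i0 e))
    {ι : Type*} [Fintype ι] [DecidableEq ι] (b : Module.Basis ι E0 E1) (b' : Module.Basis ι F0 F1)
    (hb : ∀ j, b' j = i1 (b j)) (y : E1) :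
    Algebra.norm F0 (i1 y) = i0 (Algebra.norm E0 y) := by
  rw [Algebra.norm_eq_matrix_det b', Algebra.norm_eq_matrix_det b, RingHom.map_det]
  congr 1
  ext i j
  rw [RingHom.mapMatrix_apply, Matrix.map_apply, Algebra.leftMulMatrix_eq_repr_mul,
    Algebra.leftMulMatrix_eq_repr_mul]
  have h1 : y * b j = ∑ k, (b.repr (y * b j) k) • b k := (b.sum_repr _).symm
  have h2 : i1 y * b' j = ∑ k, (i0 (b.repr (y * b j) k)) • b' k := by
    rw [hb, ← map_mul, h1, map_sum]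
    refine Finset.sum_congr rfl fun k _ => ?_
    rw [Algebra.smul_def, map_mul, hcompat, hb, Algebra.smul_def]
    congr 2
    rw [← h1]
  rw [h2, b'.repr_sum_self]

/-! ### The box of level `M * ℓ` -/

section Box

variable {M ℓ : ℕ}

theorem bound_mul_prime (hM : M ≠ 0) (hℓ : ℓ.Prime) (hℓM : ¬ ℓ ∣ M) :
    bound (M * ℓ) = bound M + Finsupp.single ℓ ℓ := by
  have h := bound_pow_mul hℓ hℓM (a := 1) one_pos hM
  rw [pow_one, mul_comm] at h
  rw [h]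
  congr 1
  have h1 := stepBound_succ ℓ 0
  rw [stepBound_zero, zero_add] at h1
  simpa using h1

theorem bound_apply_prime_of_not_dvd (hℓ : ℓ.Prime) (hℓM : ¬ ℓ ∣ M) : bound M ℓ = 0 := by
  have h := bound_apply_pow_of_not_dvd hℓ hℓM (i := 1) one_pos
  rwa [pow_one] at h

/-- A box vector of level `M * ℓ` splits into a box vector of level `M` and an exponent `≤ ℓ` of
`j(q^ℓ)`. -/
theorem exists_box_decomp (hM : M ≠ 0) (hℓ : ℓ.Prime) (hℓM : ¬ ℓ ∣ M) {μ : ℕ →₀ ℕ}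
    (hμ : μ ∈ box (M * ℓ)) :
    ∃ (μ' : ℕ →₀ ℕ) (e : ℕ), μ' ∈ box M ∧ e ≤ ℓ ∧ μ = μ' + Finsupp.single ℓ e := by
  rw [mem_box, bound_mul_prime hM hℓ hℓM] at hμ
  refine ⟨μ.erase ℓ, μ ℓ, ?_, ?_, (Finsupp.erase_add_single ℓ μ).symm⟩
  · rw [mem_box]
    intro d
    by_cases hd : d = ℓ
    · subst hd
      rw [Finsupp.erase_same]
      exact Nat.zero_le _
    · rw [Finsupp.erase_ne hd]
      have := hμ d
      rwa [Finsupp.add_apply, Finsupp.single_eq_of_ne hd, add_zero] at this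
  · have := hμ ℓ
    rwa [Finsupp.add_apply, Finsupp.single_eq_same, bound_apply_prime_of_not_dvd hℓ hℓM,
      zero_add] at this

end Box

/-! ### Spanning -/

section Span

variable (M ℓ : ℕ) [NeZero M] [NeZero ℓ]

theorem jqModC_mem : jqModC Kbar ∈ modularFunctionFieldBar M := by
  rw [← GoodRed.coeffEmb_jq]
  have h := jK_mem M (one_dvd M)
  have h1 : jK 1 = coeffEmb Kbar jq := by
    rw [jK, qExpand_one_apply]
  rwa [h1] at h

theorem K1_le : K1 Kbar ≤ modularFunctionFieldBar M := by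
  rw [K1, IntermediateField.adjoin_le_iff]
  rintro _ rfl
  exact jqModC_mem M

theorem ev_mem_bar {μ : ℕ →₀ ℕ} (hμ : μ ∈ box M) : ev Kbar μ ∈ modularFunctionFieldBar M := by
  rw [← coeffEmb_ev]
  exact coeffEmb_mem_laurentBaseChange Kbar (ev_mem_full M hμ)

theorem ev_single_eq (e : ℕ) : ev Kbar (Finsupp.single ℓ e) = jK ℓ ^ e := by
  rw [← coeffEmb_ev, ev_single, map_pow, jS_rat_eq_qExpand]
  rfl

/-- Every element of `F_{Mℓ}` is an `F_M`-combination of `1, j(q^ℓ), …, j(q^ℓ)^ℓ`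
(statement in `Kbar((q))`). -/
theorem exists_sum_pow_jK (hℓ : ℓ.Prime) (hℓM : ¬ ℓ ∣ M) {f : LaurentSeries Kbar}
    (hf : f ∈ modularFunctionFieldBar (M * ℓ)) :
    ∃ c : Fin (ℓ + 1) → FF M, f = ∑ e : Fin (ℓ + 1), (c e : LaurentSeries Kbar) * jK ℓ ^ (e : ℕ) := by
  classical
  have hf' : f ∈ boxSpan Kbar (M * ℓ) := laurentBaseChange_le_boxField Kbar (M * ℓ) hf
  rw [boxSpan] at hf'
  clear hf
  induction hf' using Submodule.span_induction with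
  | mem x hx =>
    obtain ⟨μ, rfl⟩ := hx
    obtain ⟨μ', e, hμ', he, hdec⟩ := exists_box_decomp (NeZero.ne M) hℓ hℓM μ.2
    refine ⟨Pi.single (⟨e, Nat.lt_succ_of_le he⟩ : Fin (ℓ + 1)) ⟨ev Kbar μ', ev_mem_bar M hμ'⟩, ?_⟩
    rw [Finset.sum_eq_single (⟨e, Nat.lt_succ_of_le he⟩ : Fin (ℓ + 1))]
    · rw [Pi.single_eq_same]
      show ev Kbar (μ : ℕ →₀ ℕ) = ev Kbar μ' * jK ℓ ^ e
      rw [hdec, ev_add, ev_single_eq]
    · intro b _ hb
      rw [Pi.single_eq_of_ne hb]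
      simp
    · intro h
      exact absurd (Finset.mem_univ _) h
  | zero => exact ⟨0, by simp⟩
  | add x y _ _ hx hy =>
    obtain ⟨c, hc⟩ := hx
    obtain ⟨d, hd⟩ := hy
    refine ⟨c + d, ?_⟩
    rw [hc, hd, ← Finset.sum_add_distrib]
    refine Finset.sum_congr rfl fun e _ => ?_
    rw [Pi.add_apply, AddMemClass.coe_add, add_mul]
  | smul a x _ hx =>
    obtain ⟨c, hc⟩ := hx
    refine ⟨fun e => (⟨(a : LaurentSeries Kbar), K1_le M a.2⟩ : FF M) * c e, ?_⟩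
    rw [hc, Finset.smul_sum]
    refine Finset.sum_congr rfl fun e _ => ?_
    rw [MulMemClass.coe_mul, mul_assoc]
    rfl

end Span

/-! ### The power basis and the norm -/

section Basis

variable (M ℓ : ℕ) [NeZero M] [NeZero ℓ]

/-- `j(q^ℓ)` in `F_{Mℓ}`. -/
def jl : FF (M * ℓ) := gen (M * ℓ) (dvd_mul_left ℓ M)

@[simp] theorem coe_jl : ((jl M ℓ : FF (M * ℓ)) : LaurentSeries Kbar) = jK ℓ := rfl

theorem top_le_span_jl (hℓ : ℓ.Prime) (hℓM : ¬ ℓ ∣ M) :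
    letI := Incl.algebraIncl (dvd_mul_right M ℓ)
    ⊤ ≤ Submodule.span (FF M) (Set.range fun e : Fin (ℓ + 1) => jl M ℓ ^ (e : ℕ)) := by
  letI := Incl.algebraIncl (dvd_mul_right M ℓ)
  intro f _
  obtain ⟨c, hc⟩ := exists_sum_pow_jK M ℓ hℓ hℓM f.2
  have hf : f = ∑ e : Fin (ℓ + 1), c e • jl M ℓ ^ (e : ℕ) := by
    apply Subtype.ext
    rw [hc, AddSubmonoidClass.coe_finsetSum]
    refine Finset.sum_congr rfl fun e _ => ?_
    rw [Algebra.smul_def, Incl.algebraMap_incl, MulMemClass.coe_mul, Incl.coe_incl,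
      SubmonoidClass.coe_pow, coe_jl]
  rw [hf]
  exact Submodule.sum_mem _ fun e _ =>
    Submodule.smul_mem _ _ (Submodule.subset_span ⟨e, rfl⟩)

/-- `[F_{Mℓ} : F_M] = ℓ + 1` for a prime `ℓ ∤ M`. -/
theorem finrank_mul_prime (hℓ : ℓ.Prime) (hℓM : ¬ ℓ ∣ M) :
    @Module.finrank (FF M) (FF (M * ℓ)) _ _ (Incl.algebraIncl (dvd_mul_right M ℓ)).toModule
      = ℓ + 1 := by
  have h1 := Incl.psi_mul_finrank (dvd_mul_right M ℓ)
  rw [Comb.dedekindPsi_mul_prime_of_not_dvd (NeZero.ne M) hℓ hℓM, mul_comm] at h1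
  exact Nat.eq_of_mul_eq_mul_right (Incl.dedekindPsi_pos M) h1

/-- The power basis `1, j_ℓ, …, j_ℓ^ℓ` of `F_{Mℓ}` over `F_M`. -/
def basisJl (hℓ : ℓ.Prime) (hℓM : ¬ ℓ ∣ M) :
    @Module.Basis (Fin (ℓ + 1)) (FF M) (FF (M * ℓ)) _ _
      (Incl.algebraIncl (dvd_mul_right M ℓ)).toModule :=
  letI := Incl.algebraIncl (dvd_mul_right M ℓ)
  basisOfTopLeSpanOfCardEqFinrank (fun e : Fin (ℓ + 1) => jl M ℓ ^ (e : ℕ))
    (top_le_span_jl M ℓ hℓ hℓM) (by rw [Fintype.card_fin, finrank_mul_prime M ℓ hℓ hℓM])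

theorem basisJl_apply (hℓ : ℓ.Prime) (hℓM : ¬ ℓ ∣ M) (e : Fin (ℓ + 1)) :
    basisJl M ℓ hℓ hℓM e = jl M ℓ ^ (e : ℕ) := by
  letI := Incl.algebraIncl (dvd_mul_right M ℓ)
  rw [basisJl, coe_basisOfTopLeSpanOfCardEqFinrank]

end Basis

section Norm

variable {N M : ℕ} [NeZero N] [NeZero M] (ℓ : ℕ) [NeZero ℓ]

theorem incl_jl (h : N ∣ M) :
    Incl.incl (Nat.mul_dvd_mul_right h ℓ) (jl N ℓ) = jl M ℓ :=
  Subtype.ext (Incl.coe_incl _ _)

/-- **Norm compatibility** in the square `F_N, F_{Nℓ}, F_M, F_{Mℓ}`. -/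
theorem norm_incl (h : N ∣ M) (hℓ : ℓ.Prime) (hℓM : ¬ ℓ ∣ M) (t : FF (N * ℓ)) :
    @Algebra.norm (FF M) (FF (M * ℓ)) _ _ (Incl.algebraIncl (dvd_mul_right M ℓ))
        (Incl.incl (Nat.mul_dvd_mul_right h ℓ) t) =
      Incl.incl h
        (@Algebra.norm (FF N) (FF (N * ℓ)) _ _ (Incl.algebraIncl (dvd_mul_right N ℓ)) t) := by
  classical
  have hℓN : ¬ ℓ ∣ N := fun hd => hℓM (hd.trans h)
  letI := Incl.algebraIncl (dvd_mul_right M ℓ)
  letI := Incl.algebraIncl (dvd_mul_right N ℓ)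
  refine norm_map_of_basis_aux (Incl.incl h).toRingHom
    (Incl.incl (Nat.mul_dvd_mul_right h ℓ)).toRingHom ?_
    (basisJl N ℓ hℓ hℓN) (basisJl M ℓ hℓ hℓM) ?_ t
  · intro x
    apply Subtype.ext
    show ((Incl.incl (Nat.mul_dvd_mul_right h ℓ)
      (Incl.incl (dvd_mul_right N ℓ) x) : FF (M * ℓ)) : LaurentSeries Kbar) =
      ((Incl.incl (dvd_mul_right M ℓ) (Incl.incl h x) : FF (M * ℓ)) : LaurentSeries Kbar)
    rw [Incl.coe_incl, Incl.coe_incl, Incl.coe_incl, Incl.coe_incl]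
  · intro e
    rw [basisJl_apply, basisJl_apply]
    show jl M ℓ ^ (e : ℕ) = Incl.incl (Nat.mul_dvd_mul_right h ℓ) (jl N ℓ ^ (e : ℕ))
    rw [map_pow, incl_jl ℓ h]

end Norm

end Fermat.Agent.Gateway.Descent.HeckeSq
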