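import Fermat.Agent.Gateway.Descent.BaseChangeSq
import Fermat.Agent.Gateway.Descent.HeckeSq
import Fermat.Agent.Gateway.HK1.Modular
import Fermat.Prelude.Def_ModularCurve_HeckeModule

/-!
# P-GATEWAY (c), DESCENT (D3): `π^*` commutes with the Hecke operators `T_ℓ`, `ℓ ∤ M`

For `N ∣ M` and a prime `ℓ ∤ M`, the pull-back `π^* = pullbackPic h : J₀(N) → J₀(M)` along
`F_N ⊆ F_M` satisfies `π^* ∘ T_ℓ^{(N)} = T_ℓ^{(M)} ∘ π^*` (`pullbackPic_heckeOperatorBar`), both on
divisors (`pullbackAlong_heckeDivBar`) and on `J₀`.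

`T_ℓ = α_* ∘ β^*`; `β_M ∘ incl = incl' ∘ β_N` (functoriality of the pull-back) and
`incl^* ∘ α_{N*} = α_{M*} ∘ incl'^*` (base change in the square `F_N, F_{Nℓ}, F_M, F_{Mℓ}`,
`Descent/BaseChangeSq.lean`, with the norm compatibility of `Descent/HeckeSq.lean`).
-/

set_option autoImplicit false
set_option linter.unusedSectionVars false
set_option linter.style.haveILetI false

noncomputable section

open AlgebraicCurve IntermediateField ModularCurve

namespace Fermat.Agent.Gateway.Descent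

open Fermat.Agent.S24 Fermat.Agent.S24.Setup

/-! ### `Along` forms of the abstract statements -/

section Along

variable {K F F' F'' : Type*} [Field K] [Field F] [Field F'] [Field F'']
  [Algebra K F] [Algebra K F'] [Algebra K F'']
  [HasPrincipalDivisors K F'] [HasPrincipalDivisors K F'']

theorem pullbackAlong_congr {φ φ' : F →ₐ[K] F'} (h : φ = φ') (hφ : φ.toRingHom.IsIntegral)
    (hφ' : φ'.toRingHom.IsIntegral) (D : Divisor K F) :
    Divisor.pullbackAlong φ hφ D = Divisor.pullbackAlong φ' hφ' D := by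
  subst h
  rfl

/-- Functoriality of the pull-back of divisors. -/
theorem pullbackAlong_comp (φ : F →ₐ[K] F') (ψ : F' →ₐ[K] F'')
    (hφ : φ.toRingHom.IsIntegral) (hψ : ψ.toRingHom.IsIntegral)
    (hψφ : (ψ.comp φ).toRingHom.IsIntegral) (D : Divisor K F) :
    Divisor.pullbackAlong (ψ.comp φ) hψφ D =
      Divisor.pullbackAlong ψ hψ (Divisor.pullbackAlong φ hφ D) := by
  letI := algebraAlong φ
  letI := algebraAlong ψ
  letI := algebraAlong (ψ.comp φ)
  haveI := isScalarTower_along φ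
  haveI := isScalarTower_along ψ
  haveI := isScalarTower_along (ψ.comp φ)
  haveI := isIntegral_along φ hφ
  haveI := isIntegral_along ψ hψ
  haveI := isIntegral_along (ψ.comp φ) hψφ
  haveI : IsScalarTower F F' F'' := IsScalarTower.of_algebraMap_eq fun _ => rfl
  exact (BaseChangeSq.pullback_pullback (K := K) (F := F) (F' := F') (F'' := F'') D).symm

end Along

section AlongSq

variable {K F F₁ F₂ F₁₂ : Type*} [Field K] [Field F] [Field F₁] [Field F₂] [Field F₁₂]
  [Algebra K F] [Algebra K F₁] [Algebra K F₂] [Algebra K F₁₂]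
  [PerfectField F] [PerfectField F₂]
  [HasPrincipalDivisors K F₁] [HasPrincipalDivisors K F₂] [HasPrincipalDivisors K F₁₂]

/-- Base change `i^* ∘ a_* = a'_* ∘ i'^*` in a commutative square with compatible norms. -/
theorem pullbackAlong_pushforwardAlong (a : F →ₐ[K] F₁) (i : F →ₐ[K] F₂) (a' : F₂ →ₐ[K] F₁₂)
    (i' : F₁ →ₐ[K] F₁₂)
    (ha : a.toRingHom.IsIntegral) (hi : i.toRingHom.IsIntegral)
    (ha' : a'.toRingHom.IsIntegral) (hi' : i'.toRingHom.IsIntegral)
    (hfa : FiniteAlong K a) (hfi : FiniteAlong K i) (hfa' : FiniteAlong K a')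
    (hfi' : FiniteAlong K i')
    (hsq : ∀ x : F, i' (a x) = a' (i x))
    (hnorm : ∀ t : F₁, @Algebra.norm F₂ F₁₂ _ _ (algebraAlong a') (i' t) =
      i (@Algebra.norm F F₁ _ _ (algebraAlong a) t))
    (D : Divisor K F₁) :
    Divisor.pullbackAlong i hi (Divisor.pushforwardAlong a ha D) =
      Divisor.pushforwardAlong a' ha' (Divisor.pullbackAlong i' hi' D) := by
  letI := algebraAlong a
  letI := algebraAlong i
  letI := algebraAlong a'
  letI := algebraAlong i'
  haveI := isScalarTower_along a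
  haveI := isScalarTower_along i
  haveI := isScalarTower_along a'
  haveI := isScalarTower_along i'
  haveI : FiniteDimensional F F₁ := hfa
  haveI : FiniteDimensional F F₂ := hfi
  haveI : FiniteDimensional F₂ F₁₂ := hfa'
  haveI : FiniteDimensional F₁ F₁₂ := hfi'
  exact BaseChangeSq.pullback_pushforward (K := K) (F := F) (F₁ := F₁) (F₂ := F₂) (F₁₂ := F₁₂)
    hsq hnorm D

end AlongSq

/-! ### The modular square -/

section Modular

variable {N M : ℕ} [NeZero N] [NeZero M] (ℓ : ℕ) [NeZero ℓ]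

instance perfectField_FF (N : ℕ) : PerfectField (FF N) :=
  haveI : CharZero (FF N) := charZero_of_injective_algebraMap (algebraMap Kbar (FF N)).injective
  PerfectField.ofCharZero

theorem heckeAlphaBar_eq_incl (N : ℕ) [NeZero N] :
    heckeAlphaBar Kbar N ℓ = Incl.incl (dvd_mul_right N ℓ) := rfl

theorem heckeBetaBar_comp_incl (h : N ∣ M) :
    (heckeBetaBar Kbar M ℓ).comp (Incl.incl h) =
      (Incl.incl (Nat.mul_dvd_mul_right h ℓ)).comp (heckeBetaBar Kbar N ℓ) := by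
  refine AlgHom.ext fun x => Subtype.ext ?_
  rw [AlgHom.comp_apply, AlgHom.comp_apply, coe_heckeBetaBar, Incl.coe_incl, Incl.coe_incl,
    coe_heckeBetaBar]

theorem isIntegral_comp_aux (h : N ∣ M)
    (hβ : HeckeBetaBarIntegral Kbar M ℓ) :
    ((heckeBetaBar Kbar M ℓ).comp (Incl.incl h)).toRingHom.IsIntegral :=
  RingHom.IsIntegral.trans _ _ (isIntegral_incl h) hβ

theorem heckeDivBar_apply' {N : ℕ} [NeZero N] (hα : HeckeAlphaBarIntegral Kbar N ℓ)
    (hβ : HeckeBetaBarIntegral Kbar N ℓ) [HasPrincipalDivisors Kbar (FF (N * ℓ))]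
    (D : Divisor Kbar (FF N)) :
    heckeDivBar hα hβ D =
      Divisor.pushforwardAlong (heckeAlphaBar Kbar N ℓ) hα
        (Divisor.pullbackAlong (heckeBetaBar Kbar N ℓ) hβ D) := rfl

theorem heckeDivBar_mem_degZero' {N : ℕ} [NeZero N] (hα : HeckeAlphaBarIntegral Kbar N ℓ)
    (hβ : HeckeBetaBarIntegral Kbar N ℓ) [HasPrincipalDivisors Kbar (FF (N * ℓ))]
    (hFI : FundamentalIdentityAlong Kbar (heckeBetaBar Kbar N ℓ) hβ)
    (D : Divisor.degZero (K := Kbar) (F := FF N)) :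
    heckeDivBar hα hβ (D : Divisor Kbar (FF N)) ∈ Divisor.degZero (K := Kbar) (F := FF N) :=
  Divisor.correspondence_mem_degZero _ _ hβ hα hFI D.2

theorem heckePic0Bar_mk' {N : ℕ} [NeZero N] (hα : HeckeAlphaBarIntegral Kbar N ℓ)
    (hβ : HeckeBetaBarIntegral Kbar N ℓ) [HasPrincipalDivisors Kbar (FF (N * ℓ))]
    (hFI : FundamentalIdentityAlong Kbar (heckeBetaBar Kbar N ℓ) hβ)
    (hfin : FiniteAlong Kbar (heckeAlphaBar Kbar N ℓ))
    (hN : NormFormulaAlong Kbar (heckeAlphaBar Kbar N ℓ) hfin)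
    (D : Divisor.degZero (K := Kbar) (F := FF N)) :
    heckePic0Bar hα hβ hFI hfin hN (Pic0.mk D) =
      Pic0.mk ⟨heckeDivBar hα hβ (D : Divisor Kbar (FF N)),
        heckeDivBar_mem_degZero' ℓ hα hβ hFI D⟩ := rfl

/-- **(D3), divisor level.** `π^* ∘ T_ℓ = T_ℓ ∘ π^*` on divisors. -/
theorem pullbackAlong_heckeDivBar (h : N ∣ M) (hℓ : ℓ.Prime) (hℓM : ¬ ℓ ∣ M)
    (hαN : HeckeAlphaBarIntegral Kbar N ℓ) (hβN : HeckeBetaBarIntegral Kbar N ℓ)
    (hαM : HeckeAlphaBarIntegral Kbar M ℓ) (hβM : HeckeBetaBarIntegral Kbar M ℓ)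
    [HasPrincipalDivisors Kbar (FF (N * ℓ))] [HasPrincipalDivisors Kbar (FF (M * ℓ))]
    [HasPrincipalDivisors Kbar (FF M)]
    (D : Divisor Kbar (FF N)) :
    Divisor.pullbackAlong (Incl.incl h) (isIntegral_incl h) (heckeDivBar hαN hβN D) =
      heckeDivBar hαM hβM (Divisor.pullbackAlong (Incl.incl h) (isIntegral_incl h) D) := by
  have h' : N * ℓ ∣ M * ℓ := Nat.mul_dvd_mul_right h ℓ
  rw [heckeDivBar_apply', heckeDivBar_apply']
  -- functoriality on the `β` side
  have e1 : Divisor.pullbackAlong (heckeBetaBar Kbar M ℓ) hβM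
      (Divisor.pullbackAlong (Incl.incl h) (isIntegral_incl h) D) =
      Divisor.pullbackAlong (Incl.incl h') (isIntegral_incl h')
        (Divisor.pullbackAlong (heckeBetaBar Kbar N ℓ) hβN D) := by
    rw [← pullbackAlong_comp (Incl.incl h) (heckeBetaBar Kbar M ℓ) (isIntegral_incl h) hβM
      (isIntegral_comp_aux ℓ h hβM),
      ← pullbackAlong_comp (heckeBetaBar Kbar N ℓ) (Incl.incl h') hβN (isIntegral_incl h')
        (RingHom.IsIntegral.trans _ _ hβN (isIntegral_incl h'))]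
    exact pullbackAlong_congr (heckeBetaBar_comp_incl ℓ h) _ _ D
  rw [e1]
  -- base change on the `α` side
  refine pullbackAlong_pushforwardAlong (heckeAlphaBar Kbar N ℓ) (Incl.incl h)
    (heckeAlphaBar Kbar M ℓ) (Incl.incl h') hαN (isIntegral_incl h) hαM (isIntegral_incl h')
    (HK1.finiteAlong_alpha Kbar N ℓ) (finiteAlong_incl h) (HK1.finiteAlong_alpha Kbar M ℓ)
    (finiteAlong_incl h') ?_ ?_ _
  · intro x
    apply Subtype.ext
    rw [Incl.coe_incl, coe_heckeAlphaBar, coe_heckeAlphaBar, Incl.coe_incl]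
  · intro t
    exact HeckeSq.norm_incl ℓ h hℓ hℓM t

/-- **(D3)** `π^* : J₀(N) → J₀(M)` commutes with `T_ℓ` for primes `ℓ ∤ M`
(`heckeOperatorAlong` form). -/
theorem pullbackPic_heckeOperatorAlong (h : N ∣ M) (hℓ : ℓ.Prime) (hℓM : ¬ ℓ ∣ M) (x : JZero N) :
    pullbackPic h (heckeOperatorAlong Kbar N ℓ x) =
      heckeOperatorAlong Kbar M ℓ (pullbackPic h x) := by
  obtain ⟨hαN, hβN, hPN, hfinN, hFIN, hNN⟩ := HK1.heckeInputsAlong Kbar N ℓ
  obtain ⟨hαM, hβM, hPM, hfinM, hFIM, hNM⟩ := HK1.heckeInputsAlong Kbar M ℓ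
  haveI := hPN
  haveI := hPM
  haveI := hasPrincipalDivisors_FF M
  rw [heckeOperatorAlong_eq hαN hβN hFIN hfinN hNN, heckeOperatorAlong_eq hαM hβM hFIM hfinM hNM]
  obtain ⟨D, rfl⟩ := QuotientAddGroup.mk_surjective x
  show pullbackPic h (heckePic0Bar hαN hβN hFIN hfinN hNN (Pic0.mk D)) =
    heckePic0Bar hαM hβM hFIM hfinM hNM (pullbackPic h (Pic0.mk D))
  rw [heckePic0Bar_mk', pullbackPic_mk, pullbackPic_mk, heckePic0Bar_mk']
  congr 1
  apply Subtype.ext
  exact pullbackAlong_heckeDivBar ℓ h hℓ hℓM hαN hβN hαM hβM (D : Divisor Kbar (FF N))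

end Modular

/-- **(D3)** `π^* : J₀(N) → J₀(M)` commutes with the Hecke operators `T_ℓ`, `ℓ ∤ M`. -/
theorem pullbackPic_heckeOperatorBar {N M : ℕ} [NeZero N] [NeZero M] (h : N ∣ M)
    (ℓ : Nat.Primes) (hℓM : ¬ (ℓ : ℕ) ∣ M) (x : JZero N) :
    pullbackPic h (heckeOperatorBar N ℓ x) = heckeOperatorBar M ℓ (pullbackPic h x) := by
  haveI : NeZero (ℓ : ℕ) := ⟨ℓ.2.ne_zero⟩
  rw [heckeOperatorBar_apply, heckeOperatorBar_apply]
  exact pullbackPic_heckeOperatorAlong (ℓ : ℕ) h ℓ.2 hℓM x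

end Fermat.Agent.Gateway.Descent
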