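/-
helper64 (P-GATEWAY, T1.f DESCENT, abstract step for helper38): Kummer descent through a place
with large ramification, proved with the norm formula of `Gateway/HK1/Ext.lean` only (no
unramifiedness of Kummer extensions, no Galois action on places).

`K` algebraically closed of characteristic zero, `F2 / F` finite of degree `n`, `w` a place of `F2`
over `v` with `n < 2 e(w|v)`; `h ∈ F2`, `h ^ m = u ∈ F`, `m ∣ ord_v u`. Then `h ∈ F`.
Proof (unit case `ord_v u = 0`): `h ≡ a (mod w)` with `a ∈ Kˣ`; `t := h - a`, `s := ord_w t ≥ 1`.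
The minimal polynomial of `t` over `F` divides `(X + a)^m - u = ∏_ζ (X - (ζ h - a))`, whose roots
other than `t` are units at `w`; so `ord_w (N t) ≤ [F2 : F(t)] s`, while the norm formula gives
`ord_w (N t) = e ord_v (N t) ≥ e s`. Hence `e ≤ [F2 : F(t)]`, `[F(t) : F] e ≤ n < 2 e`, `t ∈ F`.
-/
import Fermat.Agent.Gateway.HK1.Ext
import Fermat.Agent.S24.PrincipalDiv
import Fermat.Agent.S24.PrincDiv
import Fermat.Agent.S24.ZP.PlaceBasics

set_option autoImplicit false

noncomputable section

open AlgebraicCurve IntermediateField Polynomial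

namespace Fermat.Agent.Gateway.Descent.KummerNorm

open Fermat.Agent.S24

section Basics

variable {K F : Type*} [Field K] [Field F] [Algebra K F] (w : Place K F)

theorem ord_finset_prod {ι : Type*} (s : Finset ι) (f : ι → F) (h0 : ∀ i ∈ s, f i ≠ 0) :
    w.ord (∏ i ∈ s, f i) = ∑ i ∈ s, w.ord (f i) := by
  classical
  induction s using Finset.induction_on with
  | empty => simp
  | insert a s ha ih =>
    rw [Finset.prod_insert ha, Finset.sum_insert ha,
      w.ord_mul (h0 a (Finset.mem_insert_self a s))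
        (Finset.prod_ne_zero_iff.mpr fun i hi => h0 i (Finset.mem_insert_of_mem hi)),
      ih fun i hi => h0 i (Finset.mem_insert_of_mem hi)]

theorem ord_nonneg_of_mem {f : F} (hf : f ∈ w.toValuationSubring) : 0 ≤ w.ord f := by
  rcases eq_or_ne f 0 with rfl | h0
  · simp
  · exact (ZP.ord_nonneg_iff w h0).mpr hf

theorem exists_const_sub (hres : Function.Surjective (algebraMap K w.ResidueField)) (u : F)
    (hu : w.ord u = 0) : ∃ a : K, u = algebraMap K F a ∨ 0 < w.ord (u - algebraMap K F a) := by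
  rcases eq_or_ne u 0 with rfl | hu0
  · exact ⟨0, Or.inl (by simp)⟩
  have hmem : u ∈ w.toValuationSubring := (ZP.ord_nonneg_iff w hu0).mp hu.ge
  obtain ⟨a, ha⟩ := hres (IsLocalRing.residue w.toValuationSubring ⟨u, hmem⟩)
  refine ⟨a, ?_⟩
  by_cases h0 : u - algebraMap K F a = 0
  · exact Or.inl (sub_eq_zero.mp h0)
  right
  have h1 : IsLocalRing.residue w.toValuationSubring
      (⟨u, hmem⟩ - algebraMap K w.toValuationSubring a) = 0 := by
    rw [map_sub, sub_eq_zero]
    exact ha.symm
  rw [IsLocalRing.residue_eq_zero_iff] at h1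
  have h2 := (PD.place_mem_maximalIdeal_iff w _ (by simpa using h0)).mp h1
  simpa using h2

/-- a nonzero constant plus an element of positive order is a unit at `w` -/
theorem ord_const_add {c : K} (hc : c ≠ 0) {g : F} (hg : 0 < w.ord g) :
    algebraMap K F c + g ≠ 0 ∧ w.ord (algebraMap K F c + g) = 0 := by
  have hg0 : g ≠ 0 := by
    rintro rfl
    simp at hg
  have hc0 : algebraMap K F c ≠ 0 := by simpa using hc
  have hlt : w.ord (algebraMap K F c) < w.ord g := by rwa [ZP.ord_algebraMap]
  constructor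
  · intro h0
    have : g = -algebraMap K F c := by linear_combination h0
    rw [this, ZP.ord_neg] at hlt
    exact lt_irrefl _ hlt
  · rw [ZP.ord_add_eq_of_lt w hg0 hlt hc0, ZP.ord_algebraMap]

theorem deg_eq_one_of_surjective (hres : Function.Surjective (algebraMap K w.ResidueField)) :
    w.deg = 1 := by
  have hbij : Function.Bijective (algebraMap K w.ResidueField) :=
    ⟨(algebraMap K w.ResidueField).injective, hres⟩
  rw [Place.deg, ← Module.finrank_self K]
  exact ((AlgEquiv.ofBijective (Algebra.ofId K w.ResidueField) hbij).toLinearEquiv.finrank_eq).symm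

end Basics

section Unit

variable {K F F2 : Type*} [Field K] [Field F] [Field F2] [Algebra K F] [Algebra K F2]
  [Algebra F F2] [IsScalarTower K F F2] [FiniteDimensional F F2]

theorem ord_eq_zero_of_pow_eq (w' : Place K F2) (m : ℕ) (hm : 0 < m) (u : F)
    (hu : (w'.restrict F).ord u = 0) (h : F2) (hh : h ^ m = algebraMap F F2 u) :
    w'.ord h = 0 := by
  have h1 : (m : ℤ) * w'.ord h = 0 := by
    rw [← ZP.ord_pow, hh, w'.ord_restrict, hu, mul_zero]
  rcases mul_eq_zero.mp h1 with h2 | h2
  · omega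
  · exact h2

theorem inertiaDeg_eq_one_of_surjective (w : Place K F2)
    (hres : Function.Surjective (algebraMap K w.ResidueField)) : w.inertiaDeg F = 1 := by
  have h1 := w.deg_restrict_mul_inertiaDeg (F := F)
  rw [deg_eq_one_of_surjective w hres] at h1
  exact Nat.eq_one_of_mul_eq_one_left h1

variable [PerfectField F] [HasPrincipalDivisors K F2]

set_option maxHeartbeats 1000000 in
/-- **Unit case.** `h ^ m = u ∈ F` with `u` a unit at the place below `w`, where `w` is a place of
`F2` with residue field `K` and `[F2 : F] < 2 e(w)`: then `h ∈ F`. -/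
theorem exists_algebraMap_eq_of_unit [IsAlgClosed K] [CharZero K]
    (w : Place K F2) (hres : Function.Surjective (algebraMap K w.ResidueField))
    (hw : Module.finrank F F2 < 2 * w.ramificationIndex F)
    (m : ℕ) (hm : 0 < m) (u : F) (hu : (w.restrict F).ord u = 0)
    (h : F2) (hh : h ^ m = algebraMap F F2 u) : ∃ g : F, algebraMap F F2 g = h := by
  have hwh : w.ord h = 0 := ord_eq_zero_of_pow_eq w m hm u hu h hh
  obtain ⟨a, ha | ha⟩ := exists_const_sub w hres h hwh
  · exact ⟨algebraMap K F a, by rw [ha, ← IsScalarTower.algebraMap_apply]⟩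
  -- notation
  have ha12 : algebraMap F F2 (algebraMap K F a) = algebraMap K F2 a :=
    (IsScalarTower.algebraMap_apply K F F2 a).symm
  set a2 : F2 := algebraMap K F2 a with ha2
  set a1 : F := algebraMap K F a with ha1
  set t : F2 := h - a2 with ht
  have ht0 : t ≠ 0 := by
    intro h0
    rw [h0] at ha
    simp at ha
  have ha0 : a ≠ 0 := by
    rintro rfl
    rw [ht, ha2, map_zero, sub_zero, hwh] at ha
    exact lt_irrefl _ ha
  have hm' : NeZero m := ⟨hm.ne'⟩
  obtain ⟨ζ, hζ⟩ := HasEnoughRootsOfUnity.exists_primitiveRoot K m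
  set ζ2 : F2 := algebraMap K F2 ζ with hζ2
  have hζ2p : IsPrimitiveRoot ζ2 m := hζ.map_of_injective (algebraMap K F2).injective
  -- the roots
  set ρ : ℕ → F2 := fun i => ζ2 ^ i * h - a2 with hρ
  have hρ0 : ρ 0 = t := by simp [hρ, ht]
  have hρi : ∀ i ∈ Finset.range m, i ≠ 0 → ρ i ≠ 0 ∧ w.ord (ρ i) = 0 := by
    intro i hi hi0
    have hc : (ζ ^ i - 1) * a ≠ 0 :=
      mul_ne_zero (sub_ne_zero.mpr (hζ.pow_ne_one_of_pos_of_lt hi0 (Finset.mem_range.mp hi))) ha0
    have hg : 0 < w.ord (ζ2 ^ i * t) := by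
      rw [w.ord_mul (pow_ne_zero _ (hζ2p.ne_zero hm.ne')) ht0, hζ2, ← map_pow, ZP.ord_algebraMap,
        zero_add]
      exact ha
    have heq : ρ i = algebraMap K F2 ((ζ ^ i - 1) * a) + ζ2 ^ i * t := by
      simp only [hρ, ht, ha2, hζ2, map_mul, map_sub, map_pow, map_one]
      ring
    rw [heq]
    exact ord_const_add w hc hg
  have hρne : ∀ i ∈ Finset.range m, ρ i ≠ 0 := by
    intro i hi
    rcases eq_or_ne i 0 with rfl | hi0
    · rw [hρ0]; exact ht0
    · exact (hρi i hi hi0).1
  have hρmem : ∀ i, ρ i ∈ w.toValuationSubring := by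
    intro i
    have h1 : h ∈ w.toValuationSubring := by
      rcases eq_or_ne h 0 with rfl | hh0
      · exact zero_mem _
      · exact (ZP.ord_nonneg_iff w hh0).mp hwh.ge
    exact sub_mem (mul_mem (pow_mem (w.algebraMap_mem' ζ) i) h1) (w.algebraMap_mem' a)
  -- the split polynomial
  set PP : F2[X] := ∏ i ∈ Finset.range m, (X - C (ρ i)) with hPP
  have hPPmonic : PP.Monic := monic_prod_of_monic _ _ fun i _ => monic_X_sub_C _
  have hPP0 : PP ≠ 0 := hPPmonic.ne_zero
  have hPPs : PP.Splits := Splits.prod fun i _ => Splits.X_sub_C _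
  have hmap : ((X + C a1) ^ m - C u : F[X]).map (algebraMap F F2) = PP := by
    have h1 : (X ^ m - C (h ^ m) : F2[X]) = ∏ i ∈ Finset.range m, (X - C (ζ2 ^ i * h)) :=
      X_pow_sub_C_eq_prod hζ2p hm rfl
    have h2 := congrArg (fun p : F2[X] => p.comp (X + C a2)) h1
    simp only [sub_comp, pow_comp, X_comp, C_comp, prod_comp] at h2
    rw [Polynomial.map_sub, Polynomial.map_pow, Polynomial.map_add, map_X, map_C, map_C, ha12,
      ← hh, h2, hPP]
    refine Finset.prod_congr rfl fun i _ => ?_
    simp only [hρ, C_sub]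
    ring
  -- the minimal polynomial of `t`
  have htint : IsIntegral F t := Algebra.IsIntegral.isIntegral t
  have hqdvd : minpoly F t ∣ (X + C a1) ^ m - C u := by
    apply minpoly.dvd
    simp only [map_sub, map_pow, map_add, aeval_X, aeval_C]
    rw [ha12, ht, sub_add_cancel, hh, sub_self]
  set Q : F2[X] := (minpoly F t).map (algebraMap F F2) with hQ
  have hQdvd : Q ∣ PP := hmap ▸ Polynomial.map_dvd (algebraMap F F2) hqdvd
  obtain ⟨R', hR'⟩ := hQdvd
  have hQm : Q.Monic := (minpoly.monic htint).map _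
  have hRm : R'.Monic := Monic.of_mul_monic_left hQm (hR' ▸ hPPmonic)
  have hQs : Q.Splits := Splits.of_dvd hPPs hPP0 ⟨R', hR'⟩
  have hRs : R'.Splits := Splits.of_dvd hPPs hPP0 ⟨Q, by rw [hR', mul_comm]⟩
  -- constant coefficients
  have hc0 : PP.coeff 0 = Q.coeff 0 * R'.coeff 0 := by rw [hR', mul_coeff_zero]
  have hPPc : PP.coeff 0 = ∏ i ∈ Finset.range m, (-ρ i) := by
    rw [coeff_zero_eq_eval_zero, hPP, eval_prod]
    refine Finset.prod_congr rfl fun i _ => ?_
    simp
  have hPPc0 : PP.coeff 0 ≠ 0 := by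
    rw [hPPc]
    exact Finset.prod_ne_zero_iff.mpr fun i hi => neg_ne_zero.mpr (hρne i hi)
  have hordPP : w.ord (PP.coeff 0) = w.ord t := by
    rw [hPPc, ord_finset_prod w _ _ (fun i hi => neg_ne_zero.mpr (hρne i hi)),
      Finset.sum_eq_single_of_mem 0 (Finset.mem_range.mpr hm)
        (fun i hi hi0 => by rw [ZP.ord_neg]; exact (hρi i hi hi0).2), ZP.ord_neg, hρ0]
  have hRmem : R'.coeff 0 ∈ w.toValuationSubring := by
    rw [hRs.coeff_zero_eq_prod_roots_of_monic hRm]
    refine mul_mem (pow_mem (neg_mem (one_mem _)) _) (multiset_prod_mem _ ?_)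
    intro r hr
    have hr' : PP.IsRoot r := by
      rw [IsRoot.def, hR', eval_mul, (mem_roots hRm.ne_zero).mp hr, mul_zero]
    rw [IsRoot.def, hPP, eval_prod, Finset.prod_eq_zero_iff] at hr'
    obtain ⟨i, _, hi⟩ := hr'
    have : r = ρ i := by simpa [sub_eq_zero] using hi
    rw [this]
    exact hρmem i
  have hQc0 : Q.coeff 0 ≠ 0 := fun h0 => hPPc0 (by rw [hc0, h0, zero_mul])
  have hRc0 : R'.coeff 0 ≠ 0 := fun h0 => hPPc0 (by rw [hc0, h0, mul_zero])
  have hle : w.ord (Q.coeff 0) ≤ w.ord t := by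
    have h1 := w.ord_mul hQc0 hRc0
    rw [← hc0, hordPP] at h1
    have h2 := ord_nonneg_of_mem w hRmem
    omega
  -- the norm
  have hnorm := Algebra.norm_eq_prod_roots (K := F) (L := F2) F2 (x := t) hQs
  have hroots : ((minpoly F t).aroots F2).prod
      = algebraMap K F2 ((-1) ^ Q.natDegree) * Q.coeff 0 := by
    rw [hQs.coeff_zero_eq_prod_roots_of_monic hQm, ← mul_assoc, map_pow, map_neg, map_one,
      ← mul_pow]
    simp [aroots_def, hQ]
  have hsign : ((-1 : K) ^ Q.natDegree) ≠ 0 := pow_ne_zero _ (neg_ne_zero.mpr one_ne_zero)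
  have hordN : w.ord (algebraMap F F2 (Algebra.norm F t))
      = (Module.finrank F⟮t⟯ F2 : ℤ) * w.ord (Q.coeff 0) := by
    rw [hnorm, hroots, ZP.ord_pow, w.ord_mul ((_root_.map_ne_zero _).mpr hsign) hQc0, ZP.ord_algebraMap,
      zero_add]
  -- lower bound from the norm formula
  have hsum := HK1.sum_ord_mul_inertiaDeg_place (K := K) (F := F) (F' := F2) (w.restrict F) ht0
  have hlow : w.ord t ≤ (w.restrict F).ord (Algebra.norm F t) := by
    rw [← hsum]
    have hwmem : w ∈ (w.restrict F).fiber F2 := Place.restrict_mem_fiber w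
    have hnn : ∀ w' ∈ (w.restrict F).fiber F2, 0 ≤ w'.ord t * (w'.inertiaDeg F : ℤ) := by
      intro w' hw'
      have hw'v : w'.restrict F = w.restrict F := Place.mem_fiber.mp hw'
      have h1 : w'.ord h = 0 := ord_eq_zero_of_pow_eq w' m hm u (by rw [hw'v]; exact hu) h hh
      have h2 : h ∈ w'.toValuationSubring := by
        rcases eq_or_ne h 0 with rfl | hh0
        · exact zero_mem _
        · exact (ZP.ord_nonneg_iff w' hh0).mp h1.ge
      have h3 : t ∈ w'.toValuationSubring := sub_mem h2 (w'.algebraMap_mem' a)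
      exact mul_nonneg (ord_nonneg_of_mem w' h3) (Int.natCast_nonneg _)
    calc w.ord t = w.ord t * (w.inertiaDeg F : ℤ) := by
          rw [inertiaDeg_eq_one_of_surjective w hres]; simp
      _ ≤ _ := Finset.single_le_sum hnn hwmem
  -- arithmetic
  have hres' := w.ord_restrict (F := F) (Algebra.norm F t)
  rw [hordN] at hres'
  have hek : (w.ramificationIndex F : ℤ) ≤ (Module.finrank F⟮t⟯ F2 : ℤ) := by
    have h1 : (w.ramificationIndex F : ℤ) * w.ord t ≤ (Module.finrank F⟮t⟯ F2 : ℤ) * w.ord t :=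
      calc (w.ramificationIndex F : ℤ) * w.ord t
          ≤ (w.ramificationIndex F : ℤ) * (w.restrict F).ord (Algebra.norm F t) :=
            mul_le_mul_of_nonneg_left hlow (Int.natCast_nonneg _)
        _ = (Module.finrank F⟮t⟯ F2 : ℤ) * w.ord (Q.coeff 0) := hres'.symm
        _ ≤ (Module.finrank F⟮t⟯ F2 : ℤ) * w.ord t :=
            mul_le_mul_of_nonneg_left hle (Int.natCast_nonneg _)
    exact le_of_mul_le_mul_right h1 ha
  have hdk := Module.finrank_mul_finrank F F⟮t⟯ F2
  have hd1 : Module.finrank F F⟮t⟯ = 1 := by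
    have hdpos : 0 < Module.finrank F F⟮t⟯ := Module.finrank_pos
    have hek' : w.ramificationIndex F ≤ Module.finrank F⟮t⟯ F2 := by exact_mod_cast hek
    by_contra hne
    have h2 : 2 ≤ Module.finrank F F⟮t⟯ := by omega
    have : 2 * Module.finrank F⟮t⟯ F2 ≤ Module.finrank F F2 := by
      rw [← hdk]
      exact Nat.mul_le_mul_right _ h2
    omega
  have hbot : F⟮t⟯ = ⊥ := IntermediateField.finrank_eq_one_iff.mp hd1
  have htmem : t ∈ (⊥ : IntermediateField F F2) := hbot ▸ mem_adjoin_simple_self F t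
  obtain ⟨g0, hg0⟩ := IntermediateField.mem_bot.mp htmem
  refine ⟨g0 + a1, ?_⟩
  rw [map_add, hg0, ha12, ht, sub_add_cancel]

/-- **General case** (abstract form): `h ^ m = u ∈ F` with `m ∣ ord_v u` for the place `v` below
`w`; `w` has residue field `K` and `[F2 : F] < 2 e(w)`. Then `h ∈ F`. -/
theorem exists_algebraMap_eq_of_dvd [IsAlgClosed K] [CharZero K]
    (w : Place K F2) (hres : Function.Surjective (algebraMap K w.ResidueField))
    (hw : Module.finrank F F2 < 2 * w.ramificationIndex F)
    (m : ℕ) (hm : 0 < m) (u : F) (hu0 : u ≠ 0) (hdiv : (m : ℤ) ∣ (w.restrict F).ord u)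
    (h : F2) (hh : h ^ m = algebraMap F F2 u) : ∃ g : F, algebraMap F F2 g = h := by
  obtain ⟨k, hk⟩ := hdiv
  obtain ⟨π, hπ⟩ := IsDiscreteValuationRing.exists_irreducible (w.restrict F).toValuationSubring
  have hπ1 : (w.restrict F).ord (π : F) = 1 := (w.restrict F).ord_coe_irreducible hπ
  have hp0 : (π : F) ≠ 0 := by
    intro h0
    rw [h0] at hπ1
    simp at hπ1
  have hp2 : algebraMap F F2 (π : F) ≠ 0 := (_root_.map_ne_zero _).mpr hp0
  have hu' : (w.restrict F).ord (u * (π : F) ^ (-((m : ℤ) * k))) = 0 := by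
    rw [(w.restrict F).ord_mul hu0 (zpow_ne_zero _ hp0), (w.restrict F).ord_zpow, hπ1, hk]
    ring
  have hh' : (h * (algebraMap F F2 (π : F)) ^ (-k)) ^ m
      = algebraMap F F2 (u * (π : F) ^ (-((m : ℤ) * k))) := by
    rw [mul_pow, hh, map_mul, map_zpow₀, ← zpow_natCast, ← zpow_mul]
    congr 2
    ring
  obtain ⟨g', hg'⟩ := exists_algebraMap_eq_of_unit w hres hw m hm _ hu' _ hh'
  refine ⟨g' * (π : F) ^ k, ?_⟩
  rw [map_mul, hg', map_zpow₀, mul_assoc, ← zpow_add₀ hp2, neg_add_cancel, zpow_zero, mul_one]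

end Unit

section Final

variable {K F F2 : Type*} [Field K] [Field F] [Field F2] [Algebra K F] [Algebra K F2]
  [Algebra F F2] [IsScalarTower K F F2] [FiniteDimensional F F2]

/-- transport of finiteness over `K(x)` along a finite extension `F2 / F` -/
theorem finiteDimensional_adjoin_algebraMap (x : F) [FiniteDimensional K⟮x⟯ F] :
    FiniteDimensional K⟮algebraMap F F2 x⟯ F2 := by
  let φ : F →ₐ[K] F2 := IsScalarTower.toAlgHom K F F2
  have h1 : Module.Finite ↥K⟮x⟯ F2 := Module.Finite.trans F F2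
  have h2 : Module.Finite ↥((K⟮x⟯).map φ) F2 := by
    refine Module.Finite.of_equiv_equiv (A₁ := ↥K⟮x⟯) (B₁ := F2)
      (equivMap K⟮x⟯ φ).toRingEquiv (RingEquiv.refl F2) ?_
    ext e
    rfl
  have h3 : (K⟮x⟯).map φ = K⟮algebraMap F F2 x⟯ := by
    rw [adjoin_map, Set.image_singleton]
    rfl
  rw [← h3]
  exact h2

variable [IsAlgClosed K] [CharZero K]

/-- **Kummer descent via the norm formula** (function-field form). `K` algebraically closed of
characteristic zero, `F2 / F` a finite extension of function fields of curves over `K`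
(`F` finite over `K(x)`, `x` transcendental), `w` a place of `F2` with `[F2 : F] < 2 e(w | F)`.
If `h ∈ F2`, `h ^ m = u ∈ F` and `m ∣ ord_v u` at the place `v` of `F` below `w`, then `h ∈ F`. -/
theorem exists_algebraMap_eq_of_pow_eq (x : F) (hx : Transcendental K x)
    [FiniteDimensional K⟮x⟯ F] (w : Place K F2)
    (hw : Module.finrank F F2 < 2 * w.ramificationIndex F)
    (m : ℕ) (hm : 0 < m) (u : F) (hu : u ≠ 0) (hdiv : (m : ℤ) ∣ (w.restrict F).ord u)
    (h : F2) (hh : h ^ m = algebraMap F F2 u) : ∃ g : F, algebraMap F F2 g = h := by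
  have : CharZero F := charZero_of_injective_algebraMap (algebraMap K F).injective
  have hfd := finiteDimensional_adjoin_algebraMap (K := K) (F2 := F2) x
  have hx2 : Transcendental K (algebraMap F F2 x) :=
    (transcendental_algebraMap_iff (algebraMap F F2).injective).mpr hx
  have hP : HasPrincipalDivisors K F2 :=
    PDiv.hasPrincipalDivisors (algebraMap F F2 x) hx2 (fun v => PD.deg_eq_one hx2 v)
  exact exists_algebraMap_eq_of_dvd w (PD.residue_surjective hx2 w) hw m hm u hu hdiv h hh

end Final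

section Along

variable {K F F2 : Type*} [Field K] [Field F] [Field F2] [Algebra K F] [Algebra K F2]
  [IsAlgClosed K] [CharZero K]

/-- **Kummer descent via the norm formula**, for a morphism `φ : F → F2` (prelude "along" form). -/
theorem exists_eq_of_pow_eq_along (φ : F →ₐ[K] F2) (hfin : FiniteAlong K φ)
    (hφ : φ.toRingHom.IsIntegral) (x : F) (hx : Transcendental K x)
    [FiniteDimensional K⟮x⟯ F] (w : Place K F2)
    (hw : finrankAlong K φ < 2 * Place.ramificationIndexAlong φ w)
    (m : ℕ) (hm : 0 < m) (u : F) (hu : u ≠ 0)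
    (hdiv : (m : ℤ) ∣ (w.restrictAlong φ hφ).ord u)
    (h : F2) (hh : h ^ m = φ u) : ∃ g : F, φ g = h := by
  let _ := algebraAlong φ
  have := isScalarTower_along φ
  have : FiniteDimensional F F2 := hfin
  exact exists_algebraMap_eq_of_pow_eq x hx w hw m hm u hu hdiv h hh

end Along

end Fermat.Agent.Gateway.Descent.KummerNorm
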