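import Fermat.Agent.Gateway.Descent.KummerNorm
import Fermat.Agent.Gateway.BaseChange.ModularConst

/-!
# P-GATEWAY (c), T1.f DESCENT, part D2 (abstract): injectivity of the pull-back of divisor classes

`K` algebraically closed of characteristic zero, `F' / F` a finite extension of function fields of
curves over `K`, `w` a place of `F'` with `[F' : F] < 2 e(w | F)`.  If the pull-back of a divisor
`D` of `F` is principal, then `D` is principal; hence `Pic0.pullbackHom` is injective.

Proof: `π^* D = div f`; `g := N f` has `div g = n D` (norm formula + fundamental identity), and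
`g = c f ^ n` in `F'`; Kummer descent (`KummerNorm`) gives `g = g0 ^ n` in `F`, so `D = div g0`.
-/

set_option autoImplicit false
set_option linter.style.haveILetI false
set_option linter.unusedSectionVars false

noncomputable section

open AlgebraicCurve IntermediateField

namespace Fermat.Agent.Gateway.Descent.PullbackInj

open Fermat.Agent.S24 Fermat.Agent.Gateway

variable {K F F' : Type*} [Field K] [Field F] [Field F'] [Algebra K F] [Algebra K F']
  [Algebra F F'] [IsScalarTower K F F'] [IsAlgClosed K] [CharZero K] [FiniteDimensional F F']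
  [HasPrincipalDivisors K F']

/-- If the pull-back of `D` is principal then so is `D`, provided some place of `F'` has
ramification index `e` over `F` with `[F' : F] < 2 e`. -/
theorem isPrincipal_of_isPrincipal_pullback (x : F) (hx : Transcendental K x)
    [FiniteDimensional K⟮x⟯ F] (w : Place K F')
    (hw : Module.finrank F F' < 2 * w.ramificationIndex F) (D : Divisor K F)
    (h : (Divisor.pullback F' D).IsPrincipal) : D.IsPrincipal := by
  haveI : CharZero F := charZero_of_injective_algebraMap (algebraMap K F).injective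
  obtain ⟨f, hf0, hDf⟩ := h
  set n := Module.finrank F F' with hn
  have hnpos : 0 < n := Module.finrank_pos
  have hnz : (n : ℤ) ≠ 0 := by exact_mod_cast hnpos.ne'
  set g := Algebra.norm F f with hg
  have hg0 : g ≠ 0 := Algebra.norm_ne_zero_iff.mpr hf0
  -- `div g = n D`
  have hgord : ∀ v : Place K F, v.ord g = n * D v := by
    intro v
    rw [hg, ← HK1.sum_ord_mul_inertiaDeg_place v hf0]
    have h1 : ∀ w' ∈ v.fiber F', w'.ord f * (w'.inertiaDeg F : ℤ) =
        D v * ((w'.ramificationIndex F : ℤ) * (w'.inertiaDeg F : ℤ)) := by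
      intro w' hw'
      rw [← hDf w', Divisor.pullback_apply, Place.mem_fiber.mp hw']
      ring
    rw [Finset.sum_congr rfl h1, ← Finset.mul_sum,
      HK1.sum_ramificationIndex_mul_inertiaDeg_place v]
    ring
  -- `g = c f ^ n` in `F'`
  have hfn0 : f ^ n ≠ 0 := pow_ne_zero _ hf0
  have hag0 : algebraMap F F' g ≠ 0 := (map_ne_zero _).mpr hg0
  have hratio : ∀ w' : Place K F', w'.ord (algebraMap F F' g / f ^ n) = 0 := by
    intro w'
    rw [div_eq_mul_inv, w'.ord_mul hag0 (inv_ne_zero hfn0), w'.ord_inv, ← zpow_natCast,
      w'.ord_zpow, w'.ord_restrict, hgord, ← hDf w', Divisor.pullback_apply]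
    ring
  have hx' : Transcendental K (algebraMap F F' x) :=
    (transcendental_algebraMap_iff (algebraMap F F').injective).mpr hx
  haveI := KummerNorm.finiteDimensional_adjoin_algebraMap (K := K) (F2 := F') x
  obtain ⟨c, hc⟩ := BaseChange.ModularConst.exists_const_of_ord_eq_zero hx'
    (algebraMap F F' g / f ^ n) hratio
  obtain ⟨c0, hc0⟩ := IsAlgClosed.exists_pow_nat_eq c hnpos
  have hh : (algebraMap K F' c0 * f) ^ n = algebraMap F F' g := by
    rw [mul_pow, ← map_pow, hc0, ← hc, div_mul_cancel₀ _ hfn0]
  obtain ⟨g0, hg0'⟩ := KummerNorm.exists_algebraMap_eq_of_pow_eq x hx w hw n hnpos g hg0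
    ⟨D (w.restrict F), hgord _⟩ _ hh
  have hpow : g0 ^ n = g := (algebraMap F F').injective (by rw [map_pow, hg0', hh])
  have hg00 : g0 ≠ 0 := by
    rintro rfl
    rw [zero_pow hnpos.ne'] at hpow
    exact hg0 hpow.symm
  refine ⟨g0, hg00, fun v => ?_⟩
  have h2 := hgord v
  rw [← hpow, ← zpow_natCast, v.ord_zpow] at h2
  exact (mul_left_cancel₀ hnz h2).symm

/-- **Injectivity of the pull-back on `Pic0`.** -/
theorem pullbackHom_injective [FundamentalIdentity K F F'] (x : F) (hx : Transcendental K x)
    [FiniteDimensional K⟮x⟯ F] (w : Place K F')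
    (hw : Module.finrank F F' < 2 * w.ramificationIndex F) :
    Function.Injective (Pic0.pullbackHom (K := K) (F := F) F') := by
  rw [injective_iff_map_eq_zero]
  intro y hy
  obtain ⟨D, rfl⟩ := Pic0.mk_surjective y
  rw [Pic0.pullbackHom_mk, Pic0.mk, QuotientAddGroup.eq_zero_iff,
    AddSubgroup.mem_addSubgroupOf] at hy
  rw [Pic0.mk, QuotientAddGroup.eq_zero_iff, AddSubgroup.mem_addSubgroupOf]
  exact isPrincipal_of_isPrincipal_pullback x hx w hw D hy

end Fermat.Agent.Gateway.Descent.PullbackInj
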