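import Fermat.Agent.Gateway.Descent.Main
import Fermat.Agent.Gateway.Descent.PullbackInj
import Fermat.Agent.Gateway.Hecke.Equivariance

/-!
# P-GATEWAY (c), T1.f DESCENT, part D2: `π^* : J₀(N) → J₀(M)` along the inclusion `F_N ⊆ F_M`

* `pullbackPic h : JZero N →+ JZero M` (the prelude's `Pic0.pullbackHom` for the inclusion);
* `pullbackPic_injective` for `M = lcm N 4` or `lcm N 9` (general numerical form `_of_lt`);
* `pullbackPic_smul` : `π^*` commutes with the arithmetic Galois action;
* divisor-level versions `isPrincipal_of_isPrincipal_pullbackAlong`, `pullbackAlong_incl_smul`.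
-/

set_option autoImplicit false
set_option linter.style.haveILetI false
set_option linter.unusedSectionVars false

noncomputable section

open AlgebraicCurve IntermediateField ModularCurve

namespace Fermat.Agent.Gateway.Descent

open Fermat.Agent.S24 Fermat.Agent.S24.Setup

variable {N M : ℕ} [NeZero N] [NeZero M]

/-- Principal divisors of `F_M` have degree zero. -/
theorem hasPrincipalDivisors_FF (M : ℕ) [NeZero M] : HasPrincipalDivisors Kbar (FF M) :=
  haveI := Cusp.finiteDimensional_FF M
  PD.hasPrincipalDivisors (TransJ.transcendental_jF M)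

theorem finiteAlong_incl (h : N ∣ M) : FiniteAlong Kbar (Incl.incl h) :=
  Incl.finiteDimensional_incl h

theorem isIntegral_incl (h : N ∣ M) : (Incl.incl h).toRingHom.IsIntegral :=
  (Incl.isIntegral_incl h).isIntegral

theorem fundamentalIdentityAlong_incl (h : N ∣ M) :
    haveI := hasPrincipalDivisors_FF M
    FundamentalIdentityAlong Kbar (Incl.incl h) (isIntegral_incl h) := by
  haveI := hasPrincipalDivisors_FF M
  letI := Incl.algebraIncl h
  haveI := Incl.isScalarTower_incl h
  haveI := Incl.finiteDimensional_incl h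
  haveI : CharZero (FF N) := charZero_of_injective_algebraMap (algebraMap Kbar (FF N)).injective
  exact HK1.fundamentalIdentity (K := Kbar) (F := FF N) (F' := FF M)

/-- **(D2), divisor level.** If the pull-back of `D` along `F_N ⊆ F_M` is principal then `D` is
principal (general numerical form). -/
theorem isPrincipal_of_isPrincipal_pullbackAlong_of_lt (h : N ∣ M)
    (hlt : dedekindPsi M * N < 2 * M * dedekindPsi N) (D : Divisor Kbar (FF N))
    (hD : haveI := hasPrincipalDivisors_FF M
      (Divisor.pullbackAlong (Incl.incl h) (isIntegral_incl h) D).IsPrincipal) :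
    D.IsPrincipal := by
  haveI := hasPrincipalDivisors_FF M
  letI := Incl.algebraIncl h
  haveI := Incl.isScalarTower_incl h
  haveI := Incl.finiteDimensional_incl h
  haveI := Incl.isIntegral_incl h
  haveI : FiniteDimensional Kbar⟮jF N⟯ (FF N) := Cusp.finiteDimensional_FF N
  obtain ⟨pl, hpl⟩ := Incl.exists_place_finrank_lt h hlt
  exact PullbackInj.isPrincipal_of_isPrincipal_pullback (jF N) (TransJ.transcendental_jF N)
    pl hpl D hD

theorem isPrincipal_of_isPrincipal_pullbackAlong (hM : M = Nat.lcm N 4 ∨ M = Nat.lcm N 9)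
    (D : Divisor Kbar (FF N))
    (hD : haveI := hasPrincipalDivisors_FF M
      (Divisor.pullbackAlong (Incl.incl (dvd_of_eq_lcm_or hM))
        (isIntegral_incl (dvd_of_eq_lcm_or hM)) D).IsPrincipal) :
    D.IsPrincipal :=
  isPrincipal_of_isPrincipal_pullbackAlong_of_lt (dvd_of_eq_lcm_or hM) (lt_of_eq_lcm_or hM) D hD

/-- The pull-back `π^* : J₀(N) → J₀(M)` along the inclusion `F_N ⊆ F_M`
(the prelude's `Pic0.pullbackHom`). -/
def pullbackPic (h : N ∣ M) : JZero N →+ JZero M :=
  letI := Incl.algebraIncl h
  haveI := Incl.isScalarTower_incl h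
  haveI := Incl.isIntegral_incl h
  haveI := hasPrincipalDivisors_FF M
  haveI : FundamentalIdentity Kbar (FF N) (FF M) := fundamentalIdentityAlong_incl h
  Pic0.pullbackHom (K := Kbar) (F := FF N) (FF M)

theorem pullbackAlong_mem_degZero_incl (h : N ∣ M)
    (D : Divisor.degZero (K := Kbar) (F := FF N)) :
    haveI := hasPrincipalDivisors_FF M
    Divisor.pullbackAlong (Incl.incl h) (isIntegral_incl h) (D : Divisor Kbar (FF N)) ∈
      Divisor.degZero (K := Kbar) (F := FF M) :=
  haveI := hasPrincipalDivisors_FF M
  Divisor.pullbackAlong_mem_degZero _ _ (fundamentalIdentityAlong_incl h) D.2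

theorem pullbackPic_mk (h : N ∣ M) (D : Divisor.degZero (K := Kbar) (F := FF N)) :
    haveI := hasPrincipalDivisors_FF M
    pullbackPic h (Pic0.mk D) =
      Pic0.mk ⟨Divisor.pullbackAlong (Incl.incl h) (isIntegral_incl h) (D : Divisor Kbar (FF N)),
        pullbackAlong_mem_degZero_incl h D⟩ := rfl

/-- **(D2)** `π^*` is injective (general numerical form). -/
theorem pullbackPic_injective_of_lt (h : N ∣ M)
    (hlt : dedekindPsi M * N < 2 * M * dedekindPsi N) :
    Function.Injective (pullbackPic h) := by
  letI := Incl.algebraIncl h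
  haveI := Incl.isScalarTower_incl h
  haveI := Incl.finiteDimensional_incl h
  haveI := Incl.isIntegral_incl h
  haveI := hasPrincipalDivisors_FF M
  haveI : FundamentalIdentity Kbar (FF N) (FF M) := fundamentalIdentityAlong_incl h
  haveI : FiniteDimensional Kbar⟮jF N⟯ (FF N) := Cusp.finiteDimensional_FF N
  obtain ⟨pl, hpl⟩ := Incl.exists_place_finrank_lt h hlt
  exact PullbackInj.pullbackHom_injective (jF N) (TransJ.transcendental_jF N) pl hpl

/-- **(D2)** `π^* : J₀(N) → J₀(M)` is injective for `M = lcm N 4` or `M = lcm N 9`. -/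
theorem pullbackPic_injective (hM : M = Nat.lcm N 4 ∨ M = Nat.lcm N 9) :
    Function.Injective (pullbackPic (dvd_of_eq_lcm_or hM)) :=
  pullbackPic_injective_of_lt (dvd_of_eq_lcm_or hM) (lt_of_eq_lcm_or hM)

/-- The inclusion intertwines the arithmetic Galois actions. -/
theorem intertwines_incl (h : N ∣ M) (σ : Kbar ≃ₐ[ℚ] Kbar) :
    Hecke.Intertwines (Incl.incl h) (arithmeticGalois (modularFunctionFieldFull N) σ)
      (arithmeticGalois (modularFunctionFieldFull M) σ) := fun x =>
  Subtype.ext (by
    rw [coe_arithmeticGalois_smul, Incl.coe_incl, Incl.coe_incl, coe_arithmeticGalois_smul])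

/-- Pull-back of divisors commutes with the arithmetic Galois action. -/
theorem pullbackAlong_incl_smul (h : N ∣ M) (σ : Kbar ≃ₐ[ℚ] Kbar) (D : Divisor Kbar (FF N)) :
    haveI := hasPrincipalDivisors_FF M
    Divisor.pullbackAlong (Incl.incl h) (isIntegral_incl h)
        (arithmeticGalois (modularFunctionFieldFull N) σ • D) =
      arithmeticGalois (modularFunctionFieldFull M) σ •
        Divisor.pullbackAlong (Incl.incl h) (isIntegral_incl h) D :=
  haveI := hasPrincipalDivisors_FF M
  Hecke.pullbackAlong_smul (intertwines_incl h σ) D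

/-- **(D2)** `π^*` commutes with the Galois action. -/
theorem pullbackPic_smul (h : N ∣ M) (σ : Kbar ≃ₐ[ℚ] Kbar) (x : JZero N) :
    pullbackPic h (σ • x) = σ • pullbackPic h x := by
  haveI := hasPrincipalDivisors_FF M
  obtain ⟨D, rfl⟩ := Pic0.mk_surjective x
  rw [galois_smul_pic0_def, galois_smul_pic0_def, SemilinearAut.pic0_smul_mk, pullbackPic_mk,
    pullbackPic_mk, SemilinearAut.pic0_smul_mk]
  congr 1
  apply Subtype.ext
  exact pullbackAlong_incl_smul h σ (D : Divisor Kbar (FF N))

end Fermat.Agent.Gateway.Descent
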