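import Fermat.Agent.Gateway.Descent.HeckeCompat
import Fermat.Agent.Gateway.Red.S37Final

/-!
# P-GATEWAY (c), DESCENT: reduction data descend from a good level `M` to `N`

`Red.HasRedData N p` (helper37, `Gateway/Red/S37Final.lean`) is the hypothesis from which the
frozen S37 follows (`Red.s37_of_redData`).  The reduction theory (RED, ES) lives at GOOD levels `M`
(`4 ∣ M` for odd residue characteristic `ℓ`, `9 ∣ M` for `ℓ = 2`).  Here we transport the data to an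
arbitrary level `N` along `π^* = pullbackPic : J₀(N) → J₀(M)`, `M = lcm N 4` or `lcm N 9`:
`red_N := red_M ∘ π^*`, using that `π^*` is injective (D2), Galois equivariant (D2) and commutes
with `T_ℓ` for `ℓ ∤ M` (D3).

* `HasRedDataAt M p ℓ hℓ A` : the body of `HasRedData` at one `(ℓ, A)`.
* `hasRedDataAt_of_dvd` : descent along `N ∣ M` with `π^*` injective.
* `hasRedData_of_good` : `HasRedData N p` from `HasRedDataAt` at good levels.
* `s37_of_good` : the frozen S37 from reduction data at good levels.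
-/

set_option autoImplicit false
set_option linter.unusedSectionVars false
set_option linter.style.haveILetI false

noncomputable section

open AlgebraicCurve ModularCurve

namespace Fermat.Agent.Gateway.Descent

open Fermat.Agent.S24 Fermat.Agent.S24.Setup Fermat.Agent.Gateway.Red

/-- The body of `Red.HasRedData` at one prime `ℓ` and one valuation ring `A` over `ℓ`. -/
def HasRedDataAt (M p ℓ : ℕ) [NeZero M] (hℓ : ℓ.Prime)
    (A : ValuationSubring (AlgebraicClosure ℚ)) : Prop :=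
  ∃ (Jt : Type) (_ : AddCommGroup Jt) (red : JZero M →+ Jt) (Fr : Jt →+ Jt),
    (∀ σ ∈ A.inertiaSubgroupIn ℚ, ∀ x : JZero M, red (σ • x) = red x) ∧
    (∀ σ : AlgebraicClosure ℚ ≃ₐ[ℚ] AlgebraicClosure ℚ, A.IsFrobeniusAt σ ℓ →
      ∀ x : JZero M, red (σ • x) = Fr (red x)) ∧
    (∀ x : JZero M, (∃ n : ℕ, p ^ n • x = 0) → red x = 0 → x = 0) ∧
    (∀ σ : AlgebraicClosure ℚ ≃ₐ[ℚ] AlgebraicClosure ℚ, A.IsFrobeniusAt σ ℓ →
      ∀ x : JZero M, red (heckeOperatorBar M ⟨ℓ, hℓ⟩ (σ • x)) = Fr (Fr (red x)) + ℓ • red x)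

theorem hasRedData_iff (N p : ℕ) [NeZero N] :
    HasRedData N p ↔ ∀ ℓ : ℕ, (hℓ : ℓ.Prime) → ¬ ℓ ∣ N * p →
      ∀ A : ValuationSubring (AlgebraicClosure ℚ), A.LiesOverPrime ℓ → HasRedDataAt N p ℓ hℓ A :=
  Iff.rfl

variable {N M : ℕ} [NeZero N] [NeZero M]

/-- Reduction data descend along `π^* : J₀(N) → J₀(M)` when `π^*` is injective and `ℓ ∤ M`. -/
theorem hasRedDataAt_of_dvd (h : N ∣ M) (hinj : Function.Injective (pullbackPic h))
    (p ℓ : ℕ) (hℓ : ℓ.Prime) (hℓM : ¬ ℓ ∣ M) (A : ValuationSubring (AlgebraicClosure ℚ))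
    (H : HasRedDataAt M p ℓ hℓ A) : HasRedDataAt N p ℓ hℓ A := by
  obtain ⟨Jt, i1, red, Fr, h1, h2, h3, h4⟩ := H
  refine ⟨Jt, i1, red.comp (pullbackPic h), Fr, ?_, ?_, ?_, ?_⟩
  · intro σ hσ x
    rw [AddMonoidHom.comp_apply, AddMonoidHom.comp_apply, pullbackPic_smul, h1 σ hσ]
  · intro σ hσ x
    rw [AddMonoidHom.comp_apply, AddMonoidHom.comp_apply, pullbackPic_smul, h2 σ hσ]
  · rintro x ⟨n, hn⟩ hx
    apply hinj
    rw [map_zero]
    refine h3 _ ⟨n, ?_⟩ hx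
    rw [← map_nsmul, hn, map_zero]
  · intro σ hσ x
    rw [AddMonoidHom.comp_apply, AddMonoidHom.comp_apply,
      pullbackPic_heckeOperatorBar h ⟨ℓ, hℓ⟩ hℓM, pullbackPic_smul, h4 σ hσ]

/-- **`HasRedData N p` from reduction data at good levels** (`4 ∣ M` for odd `ℓ`, `9 ∣ M` for
`ℓ = 2`). -/
theorem hasRedData_of_good (N p : ℕ) [NeZero N]
    (hgood : ∀ (M : ℕ) [NeZero M] (ℓ : ℕ) (hℓ : ℓ.Prime), ¬ ℓ ∣ M * p →
      ((ℓ ≠ 2 ∧ 4 ∣ M) ∨ (ℓ = 2 ∧ 9 ∣ M)) →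
      ∀ A : ValuationSubring (AlgebraicClosure ℚ), A.LiesOverPrime ℓ → HasRedDataAt M p ℓ hℓ A) :
    HasRedData N p := by
  intro ℓ hℓ hdvd A hA
  have hℓN : ¬ ℓ ∣ N := fun h => hdvd (Dvd.dvd.mul_right h p)
  have hℓp : ¬ ℓ ∣ p := fun h => hdvd (Dvd.dvd.mul_left h N)
  have hN0 : N ≠ 0 := NeZero.ne N
  by_cases h2 : ℓ = 2
  · haveI : NeZero (Nat.lcm N 9) := ⟨Nat.lcm_ne_zero hN0 (by norm_num)⟩
    have hℓM : ¬ ℓ ∣ Nat.lcm N 9 := by
      intro hd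
      have hd' : ℓ ∣ N * 9 := hd.trans (Nat.lcm_dvd_mul N 9)
      rcases (Nat.Prime.dvd_mul hℓ).mp hd' with hd'' | hd''
      · exact hℓN hd''
      · subst h2
        omega
    have hℓMp : ¬ ℓ ∣ Nat.lcm N 9 * p := by
      intro hd
      rcases (Nat.Prime.dvd_mul hℓ).mp hd with hd | hd
      · exact hℓM hd
      · exact hℓp hd
    exact hasRedDataAt_of_dvd (M := Nat.lcm N 9) (Nat.dvd_lcm_left N 9)
      (pullbackPic_injective (M := Nat.lcm N 9) (Or.inr rfl)) p ℓ hℓ hℓM A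
      (hgood (Nat.lcm N 9) ℓ hℓ hℓMp (Or.inr ⟨h2, Nat.dvd_lcm_right N 9⟩) A hA)
  · haveI : NeZero (Nat.lcm N 4) := ⟨Nat.lcm_ne_zero hN0 (by norm_num)⟩
    have hℓM : ¬ ℓ ∣ Nat.lcm N 4 := by
      intro hd
      have hd' : ℓ ∣ N * 4 := hd.trans (Nat.lcm_dvd_mul N 4)
      rcases (Nat.Prime.dvd_mul hℓ).mp hd' with hd'' | hd''
      · exact hℓN hd''
      · have h4 : ℓ ∣ 2 ^ 2 := by norm_num; exact hd''
        exact h2 ((Nat.prime_dvd_prime_iff_eq hℓ Nat.prime_two).mp (hℓ.dvd_of_dvd_pow h4))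
    have hℓMp : ¬ ℓ ∣ Nat.lcm N 4 * p := by
      intro hd
      rcases (Nat.Prime.dvd_mul hℓ).mp hd with hd | hd
      · exact hℓM hd
      · exact hℓp hd
    exact hasRedDataAt_of_dvd (M := Nat.lcm N 4) (Nat.dvd_lcm_left N 4)
      (pullbackPic_injective (M := Nat.lcm N 4) (Or.inl rfl)) p ℓ hℓ hℓM A
      (hgood (Nat.lcm N 4) ℓ hℓ hℓMp (Or.inl ⟨h2, Nat.dvd_lcm_right N 4⟩) A hA)

/-- **The frozen S37 from reduction data at good levels.** -/
theorem s37_of_good (N p : ℕ) [NeZero N] (hcomm : HeckeOperatorsCommuteBar N)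
    (hgood : ∀ (M : ℕ) [NeZero M] (ℓ : ℕ) (hℓ : ℓ.Prime), ¬ ℓ ∣ M * p →
      ((ℓ ≠ 2 ∧ 4 ∣ M) ∨ (ℓ = 2 ∧ 9 ∣ M)) →
      ∀ A : ValuationSubring (AlgebraicClosure ℚ), A.LiesOverPrime ℓ → HasRedDataAt M p ℓ hℓ A) :
    letI := heckeModuleBar N
    ∀ (_ : SMulCommClass (AlgebraicClosure ℚ ≃ₐ[ℚ] AlgebraicClosure ℚ) HeckeAlg (JZero N)),
      SpecializationExists (K := ℚ) (L := AlgebraicClosure ℚ) N p (JZero N) :=
  s37_of_redData N p hcomm (hasRedData_of_good N p hgood)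

end Fermat.Agent.Gateway.Descent
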